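/-
P3-G, block (G-A): the ABSTRACT DÉVISSAGE from the prime form of (G) to
`S34Cond.InertiaUnipotentOnTorsion`.

The geometric argument (nodal `no_split_cover`) works in prime degree `p`: it shows that a class
of the form `(σ − 1)² x`, `x` of `p`-power order, which is killed by `p`, vanishes
(`InertiaUnipotentPrime`).  Pure group theory then gives `(σ − 1)² = 0` on all torsion of order
prime to `q`:

* `eq_zero_of_devissage` : induction on the exponent of `p`;
* `eq_zero_of_primePow` : Bézout induction on the order `m`;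
* `inertiaUnipotentOnTorsion_of_prime : InertiaUnipotentPrime N → InertiaUnipotentOnTorsion N`.
-/
import Mathlib
import Fermat.Agent.N4F.Adic.S34Cond

set_option autoImplicit false

open ModularCurve

namespace Fermat.Agent.G.Devissage

open Fermat.Agent.N4F.Adic.S34Cond

local notation "Qbar" => AlgebraicClosure ℚ
local notation "Γ" => (AlgebraicClosure ℚ ≃ₐ[ℚ] AlgebraicClosure ℚ)

section Abstract

variable {J : Type*} [AddCommGroup J]

/-- Dévissage on the exponent: an additive endomorphism `E` such that `E x = 0` whenever `x` is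
`p`-power torsion and `p • E x = 0`, kills all `p`-power torsion. -/
theorem eq_zero_of_devissage (E : J →+ J) (p : ℕ)
    (H : ∀ (k : ℕ) (x : J), p ^ k • x = 0 → p • E x = 0 → E x = 0) :
    ∀ (k : ℕ) (x : J), p ^ k • x = 0 → E x = 0 := by
  intro k
  induction k with
  | zero =>
    intro x hx
    rw [pow_zero, one_smul] at hx
    rw [hx, map_zero]
  | succ k ih =>
    intro x hx
    refine H (k + 1) x hx ?_
    rw [← map_nsmul]
    refine ih (p • x) ?_
    rw [smul_smul, ← pow_succ]
    exact hx

/-- Bézout induction on the order: an additive map killing all `p`-power torsion for the primes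
`p` in a set `Pr` kills all `m`-torsion for `m` a product of primes in `Pr`. -/
theorem eq_zero_of_primePow (E : J →+ J) (Pr : ℕ → Prop)
    (H : ∀ p : ℕ, p.Prime → Pr p → ∀ (k : ℕ) (x : J), p ^ k • x = 0 → E x = 0) :
    ∀ m : ℕ, m ≠ 0 → (∀ p : ℕ, p.Prime → p ∣ m → Pr p) → ∀ x : J, m • x = 0 → E x = 0 := by
  intro m
  induction m using Nat.strong_induction_on with
  | _ m ih =>
    intro hm0 hP x hx
    by_cases hm1 : m = 1
    · rw [hm1, one_smul] at hx
      rw [hx, map_zero]
    · obtain ⟨p, hp, hpm⟩ := Nat.exists_prime_and_dvd hm1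
      -- m = p ^ k * m' with p ∤ m'
      obtain ⟨k, m', hpm', hmk⟩ := Nat.exists_eq_pow_mul_and_not_dvd hm0 p hp.ne_one
      have hk0 : k ≠ 0 := by
        rintro rfl
        rw [pow_zero, one_mul] at hmk
        exact hpm' (hmk ▸ hpm)
      have hm'0 : m' ≠ 0 := by
        rintro rfl
        rw [mul_zero] at hmk
        exact hm0 hmk
      have hlt : m' < m := by
        rw [hmk]
        have : 2 ≤ p ^ k := by
          calc 2 ≤ p := hp.two_le
            _ = p ^ 1 := (pow_one p).symm
            _ ≤ p ^ k := Nat.pow_le_pow_right hp.pos (Nat.one_le_iff_ne_zero.mpr hk0)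
        nlinarith [Nat.pos_of_ne_zero hm'0]
      have hcop : Nat.Coprime (p ^ k) m' :=
        Nat.Coprime.pow_left k ((Nat.Prime.coprime_iff_not_dvd hp).mpr hpm')
      -- Bézout in ℤ
      have hb : (p ^ k : ℤ) * Nat.gcdA (p ^ k) m' + (m' : ℤ) * Nat.gcdB (p ^ k) m' = 1 := by
        have := Nat.gcd_eq_gcd_ab (p ^ k) m'
        rw [hcop] at this
        push_cast at this
        linarith
      set a : ℤ := Nat.gcdA (p ^ k) m'
      set b : ℤ := Nat.gcdB (p ^ k) m'
      -- x = a • (p^k • x) + b • (m' • x)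
      have hxdec : x = a • ((p ^ k : ℕ) • x) + b • ((m' : ℕ) • x) := by
        have h1 : ((p ^ k : ℤ) * a + (m' : ℤ) * b) • x = x := by rw [hb, one_smul]
        rw [add_smul, mul_comm _ a, mul_comm _ b, mul_smul, mul_smul] at h1
        rw [← natCast_zsmul x (p ^ k), ← natCast_zsmul x m']
        push_cast
        exact h1.symm
      have h1 : E ((p ^ k : ℕ) • x) = 0 := by
        refine ih m' hlt hm'0 (fun r hr hrm => hP r hr (hmk ▸ Dvd.dvd.mul_left hrm _)) _ ?_
        rw [smul_smul, mul_comm, ← hmk]
        exact hx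
      have h2 : E ((m' : ℕ) • x) = 0 := by
        refine H p hp (hP p hp hpm) k _ ?_
        rw [smul_smul, ← hmk]
        exact hx
      rw [hxdec, map_add, map_zsmul, map_zsmul, h1, h2, smul_zero, smul_zero, add_zero]

end Abstract

/-- The second difference `x ↦ σ(σx) − σx − (σx − x)` as an additive endomorphism of `J_0(N)`. -/
noncomputable def secondDiff (N : ℕ) [NeZero N] (σ : Γ) : JZero N →+ JZero N :=
  (DistribMulAction.toAddMonoidEnd Γ (JZero N) σ - 1) *
    (DistribMulAction.toAddMonoidEnd Γ (JZero N) σ - 1)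

theorem secondDiff_apply (N : ℕ) [NeZero N] (σ : Γ) (x : JZero N) :
    secondDiff N σ x = σ • (σ • x) - (σ • x) - (σ • x - x) := by
  change σ • (σ • x - x) - (σ • x - x) = _
  rw [smul_sub]

/-- **(G), prime form** (the output shape of the geometric argument): for `q ∥ N`, `σ` in an
inertia group at `q`, a prime `p ≠ q` and `x` of `p`-power order: if the second difference
`(σ − 1)² x` is killed by `p`, it vanishes. -/
def InertiaUnipotentPrime (N : ℕ) [NeZero N] : Prop :=
  ∀ q : ℕ, q.Prime → q ∣ N → ¬ q ^ 2 ∣ N → ∀ A : ValuationSubring Qbar, A.LiesOverPrime q →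
    ∀ σ ∈ A.inertiaSubgroupIn ℚ, ∀ p : ℕ, p.Prime → p ≠ q → ∀ (k : ℕ) (x : JZero N),
      p ^ k • x = 0 → p • (σ • (σ • x) - (σ • x) - (σ • x - x)) = 0 →
        σ • (σ • x) - (σ • x) - (σ • x - x) = 0

/-- **(G) from its prime form.** -/
theorem inertiaUnipotentOnTorsion_of_prime (N : ℕ) [NeZero N] (h : InertiaUnipotentPrime N) :
    InertiaUnipotentOnTorsion N := by
  intro q hq hqN hq2 A hA σ hσ m hqm x hx
  have hm0 : m ≠ 0 := fun h0 => hqm (h0 ▸ dvd_zero q)
  have key := eq_zero_of_primePow (secondDiff N σ) (fun p => p ≠ q)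
    (fun p hp hpq => eq_zero_of_devissage (secondDiff N σ) p (fun k x hx hpx => by
      rw [secondDiff_apply] at hpx ⊢
      exact h q hq hqN hq2 A hA σ hσ p hp hpq k x hx hpx))
    m hm0 (fun p _ hpm hpq => hqm (hpq ▸ hpm)) x hx
  rwa [secondDiff_apply] at key

end Fermat.Agent.G.Devissage
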