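/-
P3-G, block (G-P) (helper9): rational places of a function field `F / K` versus sections and
closed points of a chart `R ⊆ F` of a model over a discrete valuation ring `O` (`K = Frac O`).

* `IsSection R v hv` : the rational place `v` extends to an `O`-point of `Spec R`;
  `ev h : R →ₐ[O] O` the evaluation, `centre h` the closed point (maximal ideal with residue
  field `O / 𝔪_O`), `isSection_of_isIntegral`.
* `locAt R 𝔪 : Subring F` : the local ring of the chart at a prime, inside `F`; `evLoc`,
  `mem_nonunits_iff_evLoc_eq_zero`.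
* `CentredAt R 𝔫 v` : the place `v` passes through the point `𝔫`; `centre_eq_of_centredAt`.
* `ord_eq_one_of_generates` : a generator of the kernel of a section (up to units at the section)
  is a uniformiser of the place.
* (follow-up file `G/PointsGalois.lean`: semilinear automorphisms, uniqueness.)
-/
import Mathlib
import Fermat.Prelude.Def_AlgebraicCurve_BaseChangeGalois
import Fermat.Agent.N4F.E.EvalAt
import Fermat.Agent.N4F.E.PlaceValue
import Fermat.Agent.S24.PlaceDict
import Fermat.Agent.S24.PlaceExtend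

set_option autoImplicit false
set_option linter.unusedSectionVars false
set_option linter.style.haveILetI false

open AlgebraicCurve IsLocalRing

noncomputable section

namespace Fermat.Agent.G.Points

open Fermat.Agent.N4F.E.EvalAt Fermat.Agent.N4F.E.PlaceValue

variable {O K F : Type*} [CommRing O] [IsDomain O] [IsDiscreteValuationRing O]
  [Field K] [Algebra O K] [IsFractionRing O K]
  [Field F] [Algebra K F] [Algebra O F] [IsScalarTower O K F]

/-! ### Sections -/

section Section

variable (R : Subalgebra O F) (v : Place K F)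
  (hv : Function.Bijective (algebraMap K v.ResidueField))

/-- The rational place `v` is an `O`-point of the chart `R`: every element of `R` is regular at
`v` with value in `O`. -/
def IsSection : Prop :=
  ∀ r ∈ R, ∃ h : r ∈ v.toValuationSubring, valueAt v hv r h ∈ (algebraMap O K).range

variable {R v hv}

theorem IsSection.mem (h : IsSection R v hv) (r : R) : (r : F) ∈ v.toValuationSubring :=
  (h r r.2).1

/-- The value of `r ∈ R` at the section, as an element of `O`. -/
def evFun (h : IsSection R v hv) (r : R) : O := (h r r.2).2.choose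

theorem algebraMap_evFun (h : IsSection R v hv) (r : R) :
    algebraMap O K (evFun h r) = valueAt v hv (r : F) (h.mem r) :=
  (h r r.2).2.choose_spec

theorem evFun_eq_iff (h : IsSection R v hv) (r : R) (a : O) :
    evFun h r = a ↔ valueAt v hv (r : F) (h.mem r) = algebraMap O K a := by
  rw [← algebraMap_evFun h r]
  exact ⟨fun e => by rw [e], fun e => IsFractionRing.injective O K e⟩

theorem zero_mem_nonunits' (v : Place K F) : (0 : F) ∈ v.toValuationSubring.nonunits := by
  rw [ValuationSubring.mem_nonunits_iff, map_zero]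
  exact zero_lt_one

theorem valueAt_one' (h1 : (1 : F) ∈ v.toValuationSubring) : valueAt v hv 1 h1 = 1 := by
  rw [valueAt_eq_iff, map_one, sub_self]
  exact zero_mem_nonunits' v

theorem valueAt_zero' (h0 : (0 : F) ∈ v.toValuationSubring) : valueAt v hv 0 h0 = 0 := by
  rw [valueAt_eq_iff, map_zero, sub_self]
  exact zero_mem_nonunits' v

/-- **Evaluation at a section.** -/
def ev (h : IsSection R v hv) : ↥R →ₐ[O] O where
  toFun := evFun h
  map_one' := by
    rw [evFun_eq_iff, map_one]
    exact valueAt_one' _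
  map_mul' x y := by
    rw [evFun_eq_iff, map_mul, algebraMap_evFun, algebraMap_evFun]
    exact valueAt_mul v hv (h.mem x) (h.mem y)
  map_zero' := by
    rw [evFun_eq_iff, map_zero]
    exact valueAt_zero' _
  map_add' x y := by
    rw [evFun_eq_iff, map_add, algebraMap_evFun, algebraMap_evFun]
    exact valueAt_add v hv (h.mem x) (h.mem y)
  commutes' a := by
    rw [evFun_eq_iff, Algebra.algebraMap_self, RingHom.id_apply]
    have h1 : ((algebraMap O ↥R a : ↥R) : F) = algebraMap K F (algebraMap O K a) := by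
      rw [← IsScalarTower.algebraMap_apply]
      rfl
    rw [valueAt_congr v hv h1, valueAt_algebraMap]

theorem algebraMap_ev (h : IsSection R v hv) (r : R) :
    algebraMap O K (ev h r) = valueAt v hv (r : F) (h.mem r) :=
  algebraMap_evFun h r

theorem ev_eq_iff (h : IsSection R v hv) (r : R) (a : O) :
    ev h r = a ↔ valueAt v hv (r : F) (h.mem r) = algebraMap O K a :=
  evFun_eq_iff h r a

/-- `r(v) = a ↔ r - a ∈ 𝔪_v`. -/
theorem ev_eq_iff_sub_mem (h : IsSection R v hv) (r : R) (a : O) :
    ev h r = a ↔ (r : F) - algebraMap O F a ∈ v.toValuationSubring.nonunits := by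
  rw [ev_eq_iff, valueAt_eq_iff, ← IsScalarTower.algebraMap_apply]

theorem ev_eq_zero_iff (h : IsSection R v hv) (r : R) :
    ev h r = 0 ↔ (r : F) ∈ v.toValuationSubring.nonunits := by
  rw [ev_eq_iff_sub_mem, map_zero, sub_zero]

theorem ev_surjective (h : IsSection R v hv) : Function.Surjective (ev h) := fun a =>
  ⟨algebraMap O ↥R a, (ev h).commutes a⟩

/-! ### The centre of a section -/

/-- The closed point of `Spec R` at which the section `v` meets the special fibre. -/
def centre (h : IsSection R v hv) : Ideal ↥R :=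
  RingHom.ker ((IsLocalRing.residue O).comp (ev h : ↥R →+* O))

theorem mem_centre_iff (h : IsSection R v hv) (r : R) :
    r ∈ centre h ↔ ev h r ∈ maximalIdeal O := by
  rw [centre, RingHom.mem_ker, RingHom.comp_apply, IsLocalRing.residue_eq_zero_iff]
  rfl

theorem algebraMap_mem_centre_iff (h : IsSection R v hv) (a : O) :
    algebraMap O ↥R a ∈ centre h ↔ a ∈ maximalIdeal O := by
  rw [mem_centre_iff, AlgHom.commutes]
  rfl

theorem residue_comp_ev_surjective (h : IsSection R v hv) :
    Function.Surjective ((IsLocalRing.residue O).comp (ev h : ↥R →+* O)) :=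
  (IsLocalRing.residue_surjective).comp (ev_surjective h)

/-- `R / centre ≃ O / 𝔪_O`. -/
def quotCentreEquiv (h : IsSection R v hv) : (↥R ⧸ centre h) ≃+* IsLocalRing.ResidueField O :=
  RingHom.quotientKerEquivOfSurjective (residue_comp_ev_surjective h)

instance centre_isMaximal (h : IsSection R v hv) : (centre h).IsMaximal :=
  RingHom.ker_isMaximal_of_surjective _ (residue_comp_ev_surjective h)

theorem not_mem_centre_iff (h : IsSection R v hv) (r : R) :
    r ∉ centre h ↔ IsUnit (ev h r) := by
  rw [mem_centre_iff, IsLocalRing.mem_maximalIdeal, mem_nonunits_iff, not_not]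

end Section

/-! ### The ring of functions regular at `v` with value in `O` -/

section WRing

variable (O) (v : Place K F) (hv : Function.Bijective (algebraMap K v.ResidueField))

/-- `W_v = {g ∈ O_v | g(v) ∈ O}`: the functions regular at the rational place `v` whose value is
integral. -/
def wSub : Subalgebra O F where
  carrier := {g | ∃ h : g ∈ v.toValuationSubring, valueAt v hv g h ∈ (algebraMap O K).range}
  mul_mem' := by
    rintro a b ⟨ha, x, hx⟩ ⟨hb, y, hy⟩
    exact ⟨mul_mem ha hb, x * y, by rw [map_mul, hx, hy, valueAt_mul v hv ha hb]⟩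
  add_mem' := by
    rintro a b ⟨ha, x, hx⟩ ⟨hb, y, hy⟩
    exact ⟨add_mem ha hb, x + y, by rw [map_add, hx, hy, valueAt_add v hv ha hb]⟩
  algebraMap_mem' a := by
    have h1 : algebraMap O F a = algebraMap K F (algebraMap O K a) :=
      IsScalarTower.algebraMap_apply O K F a
    refine ⟨h1 ▸ v.algebraMap_mem' _, a, ?_⟩
    rw [valueAt_congr v hv h1, valueAt_algebraMap]

theorem mem_wSub_iff {g : F} :
    g ∈ wSub O v hv ↔
      ∃ h : g ∈ v.toValuationSubring, valueAt v hv g h ∈ (algebraMap O K).range := Iff.rfl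

theorem isSection_iff_le (R : Subalgebra O F) : IsSection R v hv ↔ R ≤ wSub O v hv := Iff.rfl

/-- `W_v` is integrally closed in `F`. -/
theorem mem_wSub_of_isIntegral {g : F} (hg : IsIntegral (wSub O v hv) g) : g ∈ wSub O v hv := by
  have hgv : g ∈ v.toValuationSubring :=
    Fermat.Agent.S24.mem_of_isIntegral_of_forall_mem (A := ↥(wSub O v hv)) v (fun a => a.2.1) hg
  refine ⟨hgv, ?_⟩
  obtain ⟨p, hp, hpg⟩ := hg
  -- the three ring homomorphisms
  let incl : ↥(wSub O v hv) →+* v.toValuationSubring :=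
    (algebraMap ↥(wSub O v hv) F).codRestrict v.toValuationSubring.toSubring (fun a => a.2.1)
  let ψ : v.toValuationSubring →+* K := (evalAt v hv : v.toValuationSubring →+* K)
  let φ : ↥(wSub O v hv) →+* O :=
    (ev (R := wSub O v hv) (v := v) (hv := hv) (fun _ hr => hr) : ↥(wSub O v hv) →+* O)
  have hφ : (algebraMap O K).comp φ = ψ.comp incl := by
    ext a
    exact algebraMap_ev (R := wSub O v hv) (v := v) (hv := hv) (fun _ hr => hr) a
  have h0 : Polynomial.eval₂ incl (⟨g, hgv⟩ : v.toValuationSubring) p = 0 := by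
    apply Subtype.ext
    have := Polynomial.hom_eval₂ p incl v.toValuationSubring.subtype
      (⟨g, hgv⟩ : v.toValuationSubring)
    rw [show ((Polynomial.eval₂ incl (⟨g, hgv⟩ : v.toValuationSubring) p :
        v.toValuationSubring) : F) = v.toValuationSubring.subtype
          (Polynomial.eval₂ incl (⟨g, hgv⟩ : v.toValuationSubring) p) from rfl, this]
    exact hpg
  have h1 : Polynomial.eval₂ (ψ.comp incl) (ψ ⟨g, hgv⟩) p = 0 := by
    rw [← Polynomial.hom_eval₂, h0, map_zero]
  have hint : IsIntegral O (valueAt v hv g hgv) := by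
    refine ⟨p.map φ, hp.map φ, ?_⟩
    rw [Polynomial.eval₂_map, hφ]
    exact h1
  exact IsIntegrallyClosed.isIntegral_iff.mp hint

end WRing

section SectionIntegral

variable {R : Subalgebra O F} {v : Place K F}
  {hv : Function.Bijective (algebraMap K v.ResidueField)}

/-- A chart integral over `O[S]` is a section as soon as the coordinates `S` have integral
values. -/
theorem isSection_of_isIntegral (S : Set F)
    (hS : ∀ s ∈ S, ∃ h : s ∈ v.toValuationSubring, valueAt v hv s h ∈ (algebraMap O K).range)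
    (hR : ∀ r ∈ R, IsIntegral (Algebra.adjoin O S) r) : IsSection R v hv := by
  intro r hr
  have hle : Algebra.adjoin O S ≤ wSub O v hv := Algebra.adjoin_le hS
  apply mem_wSub_of_isIntegral O v hv
  obtain ⟨p, hp, hpr⟩ := hR r hr
  refine ⟨p.map (Subalgebra.inclusion hle).toRingHom, hp.map _, ?_⟩
  rw [Polynomial.eval₂_map]
  exact hpr

end SectionIntegral

/-! ### The local ring of a chart at a prime, inside `F` -/

section LocAt

variable (R : Subalgebra O F) (𝔪 : Ideal ↥R) [h𝔪 : 𝔪.IsPrime]

/-- The localisation of the chart `R` at the prime `𝔪`, as a subring of `F`. -/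
def locAt : Subring F where
  carrier := {x | ∃ a b : R, b ∉ 𝔪 ∧ x * (b : F) = (a : F)}
  mul_mem' := by
    rintro x y ⟨a, b, hb, hx⟩ ⟨c, d, hd, hy⟩
    refine ⟨a * c, b * d, fun h => (h𝔪.mem_or_mem h).elim hb hd, ?_⟩
    push_cast
    rw [← hx, ← hy]; ring
  one_mem' := ⟨1, 1, fun h => h𝔪.ne_top ((Ideal.eq_top_iff_one _).mpr h), by simp⟩
  add_mem' := by
    rintro x y ⟨a, b, hb, hx⟩ ⟨c, d, hd, hy⟩
    refine ⟨a * d + c * b, b * d, fun h => (h𝔪.mem_or_mem h).elim hb hd, ?_⟩
    push_cast
    rw [← hx, ← hy]; ring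
  zero_mem' := ⟨0, 1, fun h => h𝔪.ne_top ((Ideal.eq_top_iff_one _).mpr h), by simp⟩
  neg_mem' := by
    rintro x ⟨a, b, hb, hx⟩
    refine ⟨-a, b, hb, ?_⟩
    push_cast
    rw [← hx]; ring

theorem mem_locAt_iff {x : F} :
    x ∈ locAt R 𝔪 ↔ ∃ a b : R, b ∉ 𝔪 ∧ x * (b : F) = (a : F) := Iff.rfl

theorem le_locAt {r : F} (hr : r ∈ R) : r ∈ locAt R 𝔪 :=
  ⟨⟨r, hr⟩, 1, fun h => h𝔪.ne_top ((Ideal.eq_top_iff_one _).mpr h), by simp⟩

theorem inv_mem_locAt {b : R} (hb : b ∉ 𝔪) : ((b : F))⁻¹ ∈ locAt R 𝔪 := by
  have hb0 : (b : F) ≠ 0 := by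
    intro h0
    apply hb
    have : b = 0 := Subtype.ext h0
    rw [this]; exact 𝔪.zero_mem
  exact ⟨1, b, hb, by simp [inv_mul_cancel₀ hb0]⟩

end LocAt

/-! ### Evaluation on `W_v` and on the local ring at the centre -/

section EvLoc

variable {R : Subalgebra O F} {v : Place K F}
  {hv : Function.Bijective (algebraMap K v.ResidueField)}

variable (O v hv) in
/-- Evaluation on `W_v`. -/
def evW : ↥(wSub O v hv) →ₐ[O] O :=
  ev (R := wSub O v hv) (v := v) (hv := hv) (fun _ hr => hr)

theorem algebraMap_evW (x : ↥(wSub O v hv)) :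
    algebraMap O K (evW O v hv x) = valueAt v hv (x : F) x.2.1 :=
  algebraMap_ev (R := wSub O v hv) (v := v) (hv := hv) (fun _ hr => hr) x

/-- **`x ∈ 𝔪_v ↔ x(v) = 0`** for `x ∈ W_v`. -/
theorem evW_eq_zero_iff (x : ↥(wSub O v hv)) :
    evW O v hv x = 0 ↔ (x : F) ∈ v.toValuationSubring.nonunits :=
  ev_eq_zero_iff (R := wSub O v hv) (v := v) (hv := hv) (fun _ hr => hr) x

theorem evW_inclusion (h : IsSection R v hv) (r : R) :
    evW O v hv (Subalgebra.inclusion ((isSection_iff_le O v hv R).mp h) r) = ev h r := by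
  apply IsFractionRing.injective O K
  rw [algebraMap_evW, algebraMap_ev]
  rfl

/-- An element of `W_v` with unit value is a unit of `W_v`. -/
theorem inv_mem_wSub {x : F} (hx : x ∈ wSub O v hv) (hu : IsUnit (evW O v hv ⟨x, hx⟩)) :
    x⁻¹ ∈ wSub O v hv := by
  obtain ⟨hxv, a, ha⟩ := hx
  have hne : evW O v hv ⟨x, ⟨hxv, a, ha⟩⟩ ≠ 0 := hu.ne_zero
  have hx0 : x ≠ 0 := by
    rintro rfl
    apply hne
    rw [evW_eq_zero_iff]
    exact zero_mem_nonunits' v
  have hnot : x ∉ v.toValuationSubring.nonunits := fun h =>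
    hne ((evW_eq_zero_iff (O := O) (v := v) (hv := hv) ⟨x, ⟨hxv, a, ha⟩⟩).mpr h)
  have hinv : x⁻¹ ∈ v.toValuationSubring := by
    rw [ValuationSubring.mem_nonunits_iff, not_lt] at hnot
    have h1 : v.toValuationSubring.valuation x = 1 :=
      le_antisymm ((ValuationSubring.valuation_le_one_iff _ _).mpr hxv) hnot
    rw [← ValuationSubring.valuation_le_one_iff, map_inv₀, h1, inv_one]
  refine ⟨hinv, ?_⟩
  obtain ⟨u, hu'⟩ := hu
  refine ⟨((u⁻¹ : Oˣ) : O), ?_⟩
  have h2 : valueAt v hv x hxv * valueAt v hv x⁻¹ hinv = 1 := by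
    rw [← valueAt_mul v hv hxv hinv]
    rw [valueAt_congr v hv (mul_inv_cancel₀ hx0)]
    exact valueAt_one' _
  have h3 : algebraMap O K (u : O) = valueAt v hv x hxv := by
    rw [hu']
    exact algebraMap_evW (O := O) (v := v) (hv := hv) ⟨x, ⟨hxv, a, ha⟩⟩
  have h4 : algebraMap O K (u : O) * algebraMap O K ((u⁻¹ : Oˣ) : O) = 1 := by
    rw [← map_mul, Units.mul_inv, map_one]
  have h5 : algebraMap O K (u : O) ≠ 0 := by
    intro h0
    rw [h0, zero_mul] at h4
    exact zero_ne_one h4
  rw [← h3] at h2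
  exact mul_left_cancel₀ h5 (h4.trans h2.symm)

/-- The local ring of the chart at the centre of a section consists of functions regular at `v`
with integral value. -/
theorem locAt_le_wSub (h : IsSection R v hv) :
    locAt R (centre h) ≤ (wSub O v hv).toSubring := by
  rintro x ⟨a, b, hb, hx⟩
  have hbW : (b : F) ∈ wSub O v hv := h b b.2
  have haW : (a : F) ∈ wSub O v hv := h a a.2
  have hu : IsUnit (evW O v hv ⟨(b : F), hbW⟩) := by
    have := (not_mem_centre_iff h b).mp hb
    rwa [← evW_inclusion h b] at this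
  have hb0 : (b : F) ≠ 0 := by
    intro h0
    apply hu.ne_zero
    rw [evW_eq_zero_iff]
    rw [h0]
    exact zero_mem_nonunits' v
  have hxe : x = (a : F) * ((b : F))⁻¹ := by
    rw [← hx, mul_assoc, mul_inv_cancel₀ hb0, mul_one]
  rw [hxe]
  exact (wSub O v hv).mul_mem haW (inv_mem_wSub hbW hu)

/-- **Evaluation on the local ring at the centre.** -/
def evLoc (h : IsSection R v hv) : ↥(locAt R (centre h)) →+* O :=
  (evW O v hv : ↥(wSub O v hv) →+* O).comp (Subring.inclusion (locAt_le_wSub h))

theorem algebraMap_evLoc (h : IsSection R v hv) (x : ↥(locAt R (centre h))) :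
    algebraMap O K (evLoc h x) = valueAt v hv (x : F) (locAt_le_wSub h x.2).1 :=
  algebraMap_evW (O := O) (v := v) (hv := hv) (Subring.inclusion (locAt_le_wSub h) x)

theorem evLoc_coe (h : IsSection R v hv) (r : R) :
    evLoc h ⟨(r : F), le_locAt R (centre h) r.2⟩ = ev h r := by
  apply IsFractionRing.injective O K
  rw [algebraMap_evLoc, algebraMap_ev]

/-- **`0 < ord_v x ↔ x(v) = 0`** on the local ring at the centre. -/
theorem evLoc_eq_zero_iff (h : IsSection R v hv) (x : ↥(locAt R (centre h))) :
    evLoc h x = 0 ↔ (x : F) ∈ v.toValuationSubring.nonunits :=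
  evW_eq_zero_iff (O := O) (v := v) (hv := hv) (Subring.inclusion (locAt_le_wSub h) x)

theorem evLoc_eq_iff_sub_mem (h : IsSection R v hv) (x : ↥(locAt R (centre h))) (a : O) :
    evLoc h x = a ↔ (x : F) - algebraMap O F a ∈ v.toValuationSubring.nonunits := by
  rw [← algebraMap_evLoc h x |> fun e => (IsFractionRing.injective O K).eq_iff (a := evLoc h x)
    (b := a), algebraMap_evLoc, valueAt_eq_iff, ← IsScalarTower.algebraMap_apply]

end EvLoc

/-! ### Places centred at a prime of the chart -/

section CentredAt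

variable (R : Subalgebra O F) (𝔫 : Ideal ↥R) [h𝔫 : 𝔫.IsPrime]

/-- The place `v` (rational or not) passes through the point `𝔫` of the chart `R`: the local ring
of `R` at `𝔫` is contained in `O_v`. -/
def CentredAt (v : Place K F) : Prop := ∀ x ∈ locAt R 𝔫, x ∈ v.toValuationSubring

variable {R 𝔫}

theorem CentredAt.mem {v : Place K F} (h : CentredAt R 𝔫 v) (r : R) :
    (r : F) ∈ v.toValuationSubring := h _ (le_locAt R 𝔫 r.2)

/-- Elements of `R` outside `𝔫` are units at a place centred at `𝔫`. -/
theorem CentredAt.not_mem_nonunits {v : Place K F} (h : CentredAt R 𝔫 v) {b : R} (hb : b ∉ 𝔫) :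
    (b : F) ∉ v.toValuationSubring.nonunits := by
  intro hb'
  have hinv := h _ (inv_mem_locAt R 𝔫 hb)
  rw [ValuationSubring.mem_nonunits_iff] at hb'
  have h1 : v.toValuationSubring.valuation ((b : F))⁻¹ ≤ 1 :=
    (ValuationSubring.valuation_le_one_iff _ _).mpr hinv
  have hb0 : (b : F) ≠ 0 := by
    intro h0
    apply hb
    have : b = 0 := Subtype.ext h0
    rw [this]; exact 𝔫.zero_mem
  have h2 : v.toValuationSubring.valuation (b : F) ≠ 0 :=
    (Valuation.ne_zero_iff _).mpr hb0
  rw [map_inv₀, inv_le_one₀ (zero_lt_iff.mpr h2)] at h1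
  exact absurd hb' (not_lt.mpr h1)

/-- A place is centred at `𝔫` iff `R ⊆ O_v` and `𝔪_v ∩ R ⊆ 𝔫`. -/
theorem centredAt_iff {v : Place K F} :
    CentredAt R 𝔫 v ↔ (∀ r : R, (r : F) ∈ v.toValuationSubring) ∧
      ∀ r : R, (r : F) ∈ v.toValuationSubring.nonunits → r ∈ 𝔫 := by
  constructor
  · intro h
    exact ⟨h.mem, fun r hr => by_contra fun hn => h.not_mem_nonunits hn hr⟩
  · rintro ⟨h1, h2⟩ x ⟨a, b, hb, hx⟩
    have hbu : (b : F) ∉ v.toValuationSubring.nonunits := fun h => hb (h2 b h)
    have hb0 : (b : F) ≠ 0 := by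
      intro h0
      apply hbu
      rw [h0]
      exact zero_mem_nonunits' v
    have hval : v.toValuationSubring.valuation (b : F) = 1 := by
      rw [ValuationSubring.mem_nonunits_iff, not_lt] at hbu
      exact le_antisymm ((ValuationSubring.valuation_le_one_iff _ _).mpr (h1 b)) hbu
    have hxe : x = (a : F) * ((b : F))⁻¹ := by
      rw [← hx, mul_assoc, mul_inv_cancel₀ hb0, mul_one]
    rw [hxe, ← ValuationSubring.valuation_le_one_iff, map_mul, map_inv₀, hval, inv_one, mul_one]
    exact (ValuationSubring.valuation_le_one_iff _ _).mpr (h1 a)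

/-- A section is centred at its centre. -/
theorem centredAt_centre {v : Place K F} {hv : Function.Bijective (algebraMap K v.ResidueField)}
    (h : IsSection R v hv) : CentredAt R (centre h) v :=
  fun _ hx => (locAt_le_wSub h hx).1

/-- A section centred at a maximal ideal `𝔫` has centre `𝔫`. -/
theorem centre_eq_of_centredAt {v : Place K F}
    {hv : Function.Bijective (algebraMap K v.ResidueField)} (h : IsSection R v hv)
    (hc : CentredAt R 𝔫 v) (hmax : 𝔫.IsMaximal) : centre h = 𝔫 := by
  symm
  apply hmax.eq_of_le (centre_isMaximal h).ne_top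
  intro r hr
  -- `r ∈ 𝔫`; if `r ∉ centre`, then `ev r` is a unit `a`, and `r - a ∈ ker ev ⊆ 𝔪_v ∩ R ⊆ 𝔫`
  by_contra hrc
  have hu := (not_mem_centre_iff h r).mp hrc
  set a : O := ev h r with ha
  have h1 : ev h (r - algebraMap O ↥R a) = 0 := by
    rw [map_sub, AlgHom.commutes, Algebra.algebraMap_self, RingHom.id_apply, sub_self]
  have h2 : r - algebraMap O ↥R a ∈ 𝔫 :=
    (centredAt_iff.mp hc).2 _ ((ev_eq_zero_iff h _).mp h1)
  have h3 : algebraMap O ↥R a ∈ 𝔫 := by
    have := 𝔫.sub_mem hr h2
    rwa [sub_sub_cancel] at this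
  -- `a` is a unit of `O`, so `1 ∈ 𝔫`
  obtain ⟨u, hu'⟩ := hu
  have h4 : algebraMap O ↥R ((u⁻¹ : Oˣ) : O) * algebraMap O ↥R a ∈ 𝔫 := 𝔫.mul_mem_left _ h3
  rw [← map_mul, ← hu', Units.inv_mul, map_one] at h4
  exact hmax.ne_top ((Ideal.eq_top_iff_one _).mpr h4)

end CentredAt

/-! ### Uniformisers from generators of the kernel of a section -/

section Uniformiser

variable {R : Subalgebra O F} {v : Place K F}
  {hv : Function.Bijective (algebraMap K v.ResidueField)}

/-- Elements of the local ring with nonzero value are units at `v`. -/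
theorem ord_eq_zero_of_evLoc_ne_zero (h : IsSection R v hv) (x : ↥(locAt R (centre h)))
    (hx : evLoc h x ≠ 0) : v.ord (x : F) = 0 := by
  have hx0 : (x : F) ≠ 0 := by
    intro h0
    apply hx
    rw [evLoc_eq_zero_iff, h0]
    exact zero_mem_nonunits' v
  have h1 : 0 ≤ v.ord (x : F) :=
    (Fermat.Agent.S24.PlaceExtend.mem_iff_ord_nonneg v hx0).1 (locAt_le_wSub h x.2).1
  have h2 : ¬ 0 < v.ord (x : F) := fun hpos =>
    hx ((evLoc_eq_zero_iff h x).mpr
      (Fermat.Agent.S24.PlaceExtend.mem_nonunits_of_ord_pos v hx0 hpos))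
  omega

/-- **A generator of the kernel of a section, up to units at `v`, is a uniformiser of `v`**:
if `b ≠ 0` vanishes at `v` and every `y` of the local ring vanishing at `v` satisfies
`s * y = t * b` with `s(v) ≠ 0`, then `ord_v b = 1`.  (`hfrac`: the local ring has fraction
field `F`.) -/
theorem ord_eq_one_of_generates (h : IsSection R v hv) (b : ↥(locAt R (centre h)))
    (hb0 : b ≠ 0) (hb : evLoc h b = 0)
    (hgen : ∀ y : ↥(locAt R (centre h)), evLoc h y = 0 →
      ∃ s t : ↥(locAt R (centre h)), evLoc h s ≠ 0 ∧ s * y = t * b)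
    (hfrac : ∀ x : F, ∃ y z : ↥(locAt R (centre h)), z ≠ 0 ∧ x * (z : F) = (y : F)) :
    v.ord (b : F) = 1 := by
  have hbF : (b : F) ≠ 0 := fun h0 => hb0 (Subtype.ext h0)
  set n : ℤ := v.ord (b : F) with hn
  have hnpos : 0 < n :=
    Fermat.Agent.S24.PlaceExtend.ord_pos_of_mem_nonunits v hbF ((evLoc_eq_zero_iff h b).mp hb)
  -- every nonzero element of the local ring has order in `n ℤ`
  have key : ∀ m : ℕ, ∀ y : ↥(locAt R (centre h)), y ≠ 0 → v.ord (y : F) = m → n ∣ (m : ℤ) := by
    intro m
    induction m using Nat.strong_induction_on with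
    | _ m ih =>
      intro y hy0 hym
      by_cases hy : evLoc h y = 0
      · obtain ⟨s, t, hs, hst⟩ := hgen y hy
        have hyF : (y : F) ≠ 0 := fun h0 => hy0 (Subtype.ext h0)
        have hsF : (s : F) ≠ 0 := by
          intro h0
          apply hs
          rw [evLoc_eq_zero_iff, h0]
          exact zero_mem_nonunits' v
        have ht0 : t ≠ 0 := by
          rintro rfl
          rw [zero_mul] at hst
          rcases mul_eq_zero.mp hst with h1 | h1
          · exact hsF (by rw [h1]; rfl)
          · exact hy0 h1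
        have htF : (t : F) ≠ 0 := fun h0 => ht0 (Subtype.ext h0)
        have hord : v.ord (s : F) + v.ord (y : F) = v.ord (t : F) + n := by
          rw [← v.ord_mul hsF hyF, ← v.ord_mul htF hbF]
          congr 1
          exact_mod_cast congrArg (fun z : ↥(locAt R (centre h)) => (z : F)) hst
        rw [ord_eq_zero_of_evLoc_ne_zero h s hs, zero_add, hym] at hord
        have ht_nonneg : 0 ≤ v.ord (t : F) :=
          (Fermat.Agent.S24.PlaceExtend.mem_iff_ord_nonneg v htF).1 (locAt_le_wSub h t.2).1
        obtain ⟨k, hk⟩ : ∃ k : ℕ, v.ord (t : F) = k := ⟨(v.ord (t : F)).toNat, by omega⟩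
        have hkm : k < m := by omega
        have := ih k hkm t ht0 hk
        rw [hord, hk]
        exact dvd_add this (dvd_refl n)
      · have := ord_eq_zero_of_evLoc_ne_zero h y hy
        rw [this] at hym
        have : (m : ℤ) = 0 := hym.symm
        rw [this]
        exact dvd_zero n
  -- a uniformiser of `v` is a fraction of elements of the local ring
  obtain ⟨π, hπ⟩ := IsDiscreteValuationRing.exists_irreducible v.toValuationSubring
  have hπ1 : v.ord (π : F) = 1 := v.ord_coe_irreducible hπ
  obtain ⟨y, z, hz0, hyz⟩ := hfrac (π : F)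
  have hzF : (z : F) ≠ 0 := fun h0 => hz0 (Subtype.ext h0)
  have hπF : (π : F) ≠ 0 := by
    intro h0
    rw [h0, v.ord_zero] at hπ1
    exact zero_ne_one hπ1
  have hyF : (y : F) ≠ 0 := by
    rw [← hyz]
    exact mul_ne_zero hπF hzF
  have hy0 : y ≠ 0 := fun h0 => hyF (by rw [h0]; rfl)
  have hy_nonneg : 0 ≤ v.ord (y : F) :=
    (Fermat.Agent.S24.PlaceExtend.mem_iff_ord_nonneg v hyF).1 (locAt_le_wSub h y.2).1
  have hz_nonneg : 0 ≤ v.ord (z : F) :=
    (Fermat.Agent.S24.PlaceExtend.mem_iff_ord_nonneg v hzF).1 (locAt_le_wSub h z.2).1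
  have h1 : v.ord (y : F) = 1 + v.ord (z : F) := by
    rw [← hyz, v.ord_mul hπF hzF, hπ1]
  have hdy : n ∣ v.ord (y : F) := by
    have := key (v.ord (y : F)).toNat y hy0 (by omega)
    rwa [Int.toNat_of_nonneg hy_nonneg] at this
  have hdz : n ∣ v.ord (z : F) := by
    have := key (v.ord (z : F)).toNat z hz0 (by omega)
    rwa [Int.toNat_of_nonneg hz_nonneg] at this
  have hd1 : n ∣ 1 := by
    have := dvd_sub hdy hdz
    rwa [h1, add_sub_cancel_right] at this
  exact Int.eq_one_of_dvd_one hnpos.le hd1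

end Uniformiser

end Fermat.Agent.G.Points
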