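/-
P3-G, block (G-P), part 2 (helper9): the local ring of a chart at a closed point as a local
`O`-algebra, the second half of (Loc-P), and semilinear automorphisms.

* `locAlg R 𝔫 : Subalgebra O F` (carrier `Points.locAt R 𝔫`), with `IsLocalization.AtPrime`,
  `IsLocalRing`, noetherianity; `isSection_locAlg`, `evLocAlg h : ↥(locAlg R (centre h)) →ₐ[O] O`.
* for an arbitrary section: `ord_eq_one_of_generates_sec`, `exists_frac_of_generates`
  (`O_v` is the localisation of the chart at the kernel of the section),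
  `place_eq_of_ker_le` (a place through which the kernel of a section vanishes is that section).
* `isSection_smul`, `ev_smul`, `centre_smul_eq`, `centredAt_smul`.
-/
import Mathlib
import Fermat.Agent.G.Points
import Fermat.Agent.N4F.A.FundIdentity
import Fermat.Agent.P3G.NodeLocal

set_option autoImplicit false
set_option linter.unusedSectionVars false
set_option linter.style.haveILetI false

open AlgebraicCurve IsLocalRing

noncomputable section

namespace Fermat.Agent.G.PointsLoc

open Fermat.Agent.N4F.E.EvalAt Fermat.Agent.N4F.E.PlaceValue Fermat.Agent.G.Points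

variable {O K F : Type*} [CommRing O] [IsDomain O] [IsDiscreteValuationRing O]
  [Field K] [Algebra O K] [IsFractionRing O K]
  [Field F] [Algebra K F] [Algebra O F] [IsScalarTower O K F]

/-! ### The local ring at a prime as an `O`-subalgebra -/

section LocAlg

variable (R : Subalgebra O F) (𝔫 : Ideal ↥R) [h𝔫 : 𝔫.IsPrime]

/-- The local ring of the chart `R` at the prime `𝔫`, as an `O`-subalgebra of `F`. -/
def locAlg : Subalgebra O F :=
  { locAt R 𝔫 with
    algebraMap_mem' := fun a => le_locAt R 𝔫 (R.algebraMap_mem a) }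

theorem mem_locAlg_iff {x : F} :
    x ∈ locAlg R 𝔫 ↔ ∃ a b : R, b ∉ 𝔫 ∧ x * (b : F) = (a : F) := Iff.rfl

theorem mem_locAlg_iff_mem_locAt {x : F} : x ∈ locAlg R 𝔫 ↔ x ∈ locAt R 𝔫 := Iff.rfl

theorem toSubring_locAlg : (locAlg R 𝔫).toSubring = locAt R 𝔫 := rfl

theorem le_locAlg : R ≤ locAlg R 𝔫 := fun _ hr => le_locAt R 𝔫 hr

theorem inv_mem_locAlg {b : R} (hb : b ∉ 𝔫) : ((b : F))⁻¹ ∈ locAlg R 𝔫 :=
  inv_mem_locAt R 𝔫 hb

instance algebraLocAlg : Algebra ↥R ↥(locAlg R 𝔫) :=
  (Subalgebra.inclusion (le_locAlg R 𝔫)).toRingHom.toAlgebra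

theorem algebraMap_locAlg_coe (r : R) : ((algebraMap ↥R ↥(locAlg R 𝔫) r : ↥(locAlg R 𝔫)) : F) = r :=
  rfl

instance isScalarTower_locAlg : IsScalarTower O ↥R ↥(locAlg R 𝔫) :=
  IsScalarTower.of_algebraMap_eq fun _ => rfl

theorem algebraMap_locAlg_injective : Function.Injective (algebraMap ↥R ↥(locAlg R 𝔫)) :=
  fun _ _ h => Subtype.ext (congrArg (fun z : ↥(locAlg R 𝔫) => (z : F)) h)

instance isLocalization_locAlg : IsLocalization.AtPrime ↥(locAlg R 𝔫) 𝔫 where
  map_units := by
    rintro ⟨b, hb⟩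
    have hb' : b ∉ 𝔫 := hb
    have hb0 : (b : F) ≠ 0 := by
      intro h0
      apply hb'
      have : b = 0 := Subtype.ext h0
      rw [this]; exact 𝔫.zero_mem
    refine isUnit_iff_exists_inv.mpr ⟨⟨((b : F))⁻¹, inv_mem_locAlg R 𝔫 hb'⟩, ?_⟩
    apply Subtype.ext
    show (b : F) * ((b : F))⁻¹ = 1
    exact mul_inv_cancel₀ hb0
  surj := by
    rintro ⟨x, a, b, hb, hx⟩
    refine ⟨(a, ⟨b, hb⟩), ?_⟩
    apply Subtype.ext
    exact hx
  exists_of_eq := by
    intro a b h
    exact ⟨1, by rw [algebraMap_locAlg_injective R 𝔫 h]⟩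

instance isLocalRing_locAlg : IsLocalRing ↥(locAlg R 𝔫) :=
  IsLocalization.AtPrime.isLocalRing ↥(locAlg R 𝔫) 𝔫

theorem isNoetherianRing_locAlg [IsNoetherianRing ↥R] : IsNoetherianRing ↥(locAlg R 𝔫) :=
  IsLocalization.isNoetherianRing 𝔫.primeCompl ↥(locAlg R 𝔫) inferInstance

theorem maximalIdeal_locAlg :
    maximalIdeal ↥(locAlg R 𝔫) = Ideal.map (algebraMap ↥R ↥(locAlg R 𝔫)) 𝔫 :=
  (IsLocalization.AtPrime.map_eq_maximalIdeal 𝔫 ↥(locAlg R 𝔫)).symm

theorem algebraMap_mem_maximalIdeal_locAlg_iff (r : R) :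
    algebraMap ↥R ↥(locAlg R 𝔫) r ∈ maximalIdeal ↥(locAlg R 𝔫) ↔ r ∈ 𝔫 :=
  IsLocalization.AtPrime.to_map_mem_maximal_iff ↥(locAlg R 𝔫) 𝔫 r

end LocAlg

/-! ### The local ring at the centre of a section -/

section SectionLoc

variable {R : Subalgebra O F} {v : Place K F}
  {hv : Function.Bijective (algebraMap K v.ResidueField)}

/-- A section of the chart is a section of the local ring at its centre. -/
theorem isSection_locAlg (h : IsSection R v hv) : IsSection (locAlg R (centre h)) v hv :=
  fun _ hx => locAt_le_wSub h hx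

/-- Evaluation on the local ring at the centre, as an `O`-algebra homomorphism. -/
def evLocAlg (h : IsSection R v hv) : ↥(locAlg R (centre h)) →ₐ[O] O :=
  ev (isSection_locAlg h)

theorem evLocAlg_eq_evLoc (h : IsSection R v hv) (x : ↥(locAlg R (centre h))) :
    evLocAlg h x = evLoc h ⟨(x : F), x.2⟩ := by
  apply IsFractionRing.injective O K
  rw [evLocAlg, algebraMap_ev, algebraMap_evLoc]

theorem evLocAlg_algebraMap (h : IsSection R v hv) (r : R) :
    evLocAlg h (algebraMap ↥R ↥(locAlg R (centre h)) r) = ev h r := by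
  apply IsFractionRing.injective O K
  rw [evLocAlg, algebraMap_ev, algebraMap_ev]
  rfl

theorem evLocAlg_eq_zero_iff (h : IsSection R v hv) (x : ↥(locAlg R (centre h))) :
    evLocAlg h x = 0 ↔ (x : F) ∈ v.toValuationSubring.nonunits :=
  ev_eq_zero_iff (isSection_locAlg h) x

/-- The centre of the section of the local ring is its maximal ideal. -/
theorem centre_locAlg (h : IsSection R v hv) :
    centre (isSection_locAlg h) = maximalIdeal ↥(locAlg R (centre h)) :=
  (IsLocalRing.eq_maximalIdeal (centre_isMaximal (isSection_locAlg h)))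

end SectionLoc

/-! ### Generators of the kernel of a section -/

section Generates

variable {R : Subalgebra O F} {v : Place K F}
  {hv : Function.Bijective (algebraMap K v.ResidueField)}

theorem coe_ne_zero_of_ev_ne_zero (h : IsSection R v hv) {x : R} (hx : ev h x ≠ 0) :
    (x : F) ≠ 0 := by
  intro h0
  apply hx
  rw [ev_eq_zero_iff, h0]
  exact zero_mem_nonunits' v

/-- Elements of the chart with nonzero value are units at `v`. -/
theorem ord_eq_zero_of_ev_ne_zero (h : IsSection R v hv) (x : R) (hx : ev h x ≠ 0) :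
    v.ord (x : F) = 0 := by
  have hx0 : (x : F) ≠ 0 := coe_ne_zero_of_ev_ne_zero h hx
  have h1 : 0 ≤ v.ord (x : F) :=
    (Fermat.Agent.S24.PlaceExtend.mem_iff_ord_nonneg v hx0).1 (h.mem x)
  have h2 : ¬ 0 < v.ord (x : F) := fun hpos =>
    hx ((ev_eq_zero_iff h x).mpr
      (Fermat.Agent.S24.PlaceExtend.mem_nonunits_of_ord_pos v hx0 hpos))
  omega

theorem ord_nonneg_of_mem (h : IsSection R v hv) {x : R} (hx : (x : F) ≠ 0) :
    0 ≤ v.ord (x : F) :=
  (Fermat.Agent.S24.PlaceExtend.mem_iff_ord_nonneg v hx).1 (h.mem x)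

/-- The hypothesis "`b` generates the kernel of the section up to units at the section". -/
def Generates (h : IsSection R v hv) (b : R) : Prop :=
  ∀ y : R, ev h y = 0 → ∃ s t : R, ev h s ≠ 0 ∧ s * y = t * b

/-- Every nonzero element of the chart is, up to elements with nonzero value, a power of `b`. -/
theorem exists_mul_eq_mul_pow (h : IsSection R v hv) (b : R) (hb0 : b ≠ 0) (hb : ev h b = 0)
    (hgen : Generates h b) (y : R) (hy0 : y ≠ 0) :
    ∃ (s t : R) (k : ℕ), ev h s ≠ 0 ∧ ev h t ≠ 0 ∧ s * y = t * b ^ k := by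
  have hbF : (b : F) ≠ 0 := fun h0 => hb0 (Subtype.ext h0)
  have hnpos : 0 < v.ord (b : F) :=
    Fermat.Agent.S24.PlaceExtend.ord_pos_of_mem_nonunits v hbF ((ev_eq_zero_iff h b).mp hb)
  have key : ∀ m : ℕ, ∀ y : R, y ≠ 0 → v.ord (y : F) = m →
      ∃ (s t : R) (k : ℕ), ev h s ≠ 0 ∧ ev h t ≠ 0 ∧ s * y = t * b ^ k := by
    intro m
    induction m using Nat.strong_induction_on with
    | _ m ih =>
      intro y hy0 hym
      by_cases hy : ev h y = 0
      · obtain ⟨s, t, hs, hst⟩ := hgen y hy
        have hyF : (y : F) ≠ 0 := fun h0 => hy0 (Subtype.ext h0)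
        have hsF : (s : F) ≠ 0 := coe_ne_zero_of_ev_ne_zero h hs
        have ht0 : t ≠ 0 := by
          rintro rfl
          rw [zero_mul] at hst
          rcases mul_eq_zero.mp hst with h1 | h1
          · exact hsF (by rw [h1]; rfl)
          · exact hy0 h1
        have htF : (t : F) ≠ 0 := fun h0 => ht0 (Subtype.ext h0)
        have hord : v.ord (s : F) + v.ord (y : F) = v.ord (t : F) + v.ord (b : F) := by
          rw [← v.ord_mul hsF hyF, ← v.ord_mul htF hbF]
          congr 1
          exact_mod_cast congrArg (fun z : R => (z : F)) hst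
        rw [ord_eq_zero_of_ev_ne_zero h s hs, zero_add, hym] at hord
        have ht_nonneg : 0 ≤ v.ord (t : F) := ord_nonneg_of_mem h htF
        obtain ⟨k, hk⟩ : ∃ k : ℕ, v.ord (t : F) = k := ⟨(v.ord (t : F)).toNat, by omega⟩
        have hkm : k < m := by omega
        obtain ⟨s', t', k', hs', ht', hst'⟩ := ih k hkm t ht0 hk
        refine ⟨s' * s, t', k' + 1, ?_, ht', ?_⟩
        · rw [map_mul]
          exact mul_ne_zero hs' hs
        · rw [mul_assoc, hst, ← mul_assoc, hst', pow_succ, mul_assoc]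
      · exact ⟨1, y, 0, by rw [map_one]; exact one_ne_zero, hy, by rw [pow_zero, one_mul, mul_one]⟩
  have hyF : (y : F) ≠ 0 := fun h0 => hy0 (Subtype.ext h0)
  have hy_nonneg : 0 ≤ v.ord (y : F) := ord_nonneg_of_mem h hyF
  exact key (v.ord (y : F)).toNat y hy0 (by omega)

/-- **A generator of the kernel of a section, up to units at `v`, is a uniformiser of `v`.**
(`hfrac`: the chart has fraction field `F`.) -/
theorem ord_eq_one_of_generates_sec (h : IsSection R v hv) (b : R) (hb0 : b ≠ 0)
    (hb : ev h b = 0) (hgen : Generates h b)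
    (hfrac : ∀ x : F, ∃ y z : R, z ≠ 0 ∧ x * (z : F) = (y : F)) : v.ord (b : F) = 1 := by
  have hbF : (b : F) ≠ 0 := fun h0 => hb0 (Subtype.ext h0)
  set n : ℤ := v.ord (b : F) with hn
  have hnpos : 0 < n :=
    Fermat.Agent.S24.PlaceExtend.ord_pos_of_mem_nonunits v hbF ((ev_eq_zero_iff h b).mp hb)
  have key : ∀ y : R, y ≠ 0 → n ∣ v.ord (y : F) := by
    intro y hy0
    obtain ⟨s, t, k, hs, ht, hst⟩ := exists_mul_eq_mul_pow h b hb0 hb hgen y hy0
    have hyF : (y : F) ≠ 0 := fun h0 => hy0 (Subtype.ext h0)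
    have hsF : (s : F) ≠ 0 := coe_ne_zero_of_ev_ne_zero h hs
    have htF : (t : F) ≠ 0 := coe_ne_zero_of_ev_ne_zero h ht
    have hord : v.ord (s : F) + v.ord (y : F) = v.ord (t : F) + v.ord ((b : F) ^ k) := by
      rw [← v.ord_mul hsF hyF, ← v.ord_mul htF (pow_ne_zero k hbF)]
      congr 1
      exact_mod_cast congrArg (fun z : R => (z : F)) hst
    rw [ord_eq_zero_of_ev_ne_zero h s hs, ord_eq_zero_of_ev_ne_zero h t ht, zero_add, zero_add,
      ← zpow_natCast, v.ord_zpow] at hord
    rw [hord]
    exact Dvd.intro_left _ rfl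
  obtain ⟨π, hπ⟩ := IsDiscreteValuationRing.exists_irreducible v.toValuationSubring
  have hπ1 : v.ord (π : F) = 1 := v.ord_coe_irreducible hπ
  obtain ⟨y, z, hz0, hyz⟩ := hfrac (π : F)
  have hzF : (z : F) ≠ 0 := fun h0 => hz0 (Subtype.ext h0)
  have hπF : (π : F) ≠ 0 := by
    intro h0
    rw [h0, v.ord_zero] at hπ1
    exact zero_ne_one hπ1
  have hyF : (y : F) ≠ 0 := by
    rw [← hyz]
    exact mul_ne_zero hπF hzF
  have hy0 : y ≠ 0 := fun h0 => hyF (by rw [h0]; rfl)
  have h1 : v.ord (y : F) = 1 + v.ord (z : F) := by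
    rw [← hyz, v.ord_mul hπF hzF, hπ1]
  have hd1 : n ∣ 1 := by
    have := dvd_sub (key y hy0) (key z hz0)
    rwa [h1, add_sub_cancel_right] at this
  exact Int.eq_one_of_dvd_one hnpos.le hd1

/-- **`O_v` is the localisation of the chart at the kernel of the section**, if that kernel is
generated by one element up to units at the section. -/
theorem exists_frac_of_generates (h : IsSection R v hv) (b : R) (hb0 : b ≠ 0)
    (hb : ev h b = 0) (hgen : Generates h b)
    (hfrac : ∀ x : F, ∃ y z : R, z ≠ 0 ∧ x * (z : F) = (y : F)) {x : F}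
    (hx : x ∈ v.toValuationSubring) : ∃ a s : R, ev h s ≠ 0 ∧ x * (s : F) = (a : F) := by
  have hbF : (b : F) ≠ 0 := fun h0 => hb0 (Subtype.ext h0)
  have hb1 : v.ord (b : F) = 1 := ord_eq_one_of_generates_sec h b hb0 hb hgen hfrac
  rcases eq_or_ne x 0 with rfl | hx0
  · exact ⟨0, 1, by rw [map_one]; exact one_ne_zero, by simp⟩
  obtain ⟨y, z, hz0, hyz⟩ := hfrac x
  have hzF : (z : F) ≠ 0 := fun h0 => hz0 (Subtype.ext h0)
  have hyF : (y : F) ≠ 0 := by
    rw [← hyz]
    exact mul_ne_zero hx0 hzF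
  have hy0 : y ≠ 0 := fun h0 => hyF (by rw [h0]; rfl)
  obtain ⟨sy, ty, ky, hsy, hty, hy⟩ := exists_mul_eq_mul_pow h b hb0 hb hgen y hy0
  obtain ⟨sz, tz, kz, hsz, htz, hz⟩ := exists_mul_eq_mul_pow h b hb0 hb hgen z hz0
  have hsyF : (sy : F) ≠ 0 := coe_ne_zero_of_ev_ne_zero h hsy
  have htyF : (ty : F) ≠ 0 := coe_ne_zero_of_ev_ne_zero h hty
  have hszF : (sz : F) ≠ 0 := coe_ne_zero_of_ev_ne_zero h hsz
  have htzF : (tz : F) ≠ 0 := coe_ne_zero_of_ev_ne_zero h htz
  have hyF' : (sy : F) * (y : F) = (ty : F) * (b : F) ^ ky := by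
    exact_mod_cast congrArg (fun z : R => (z : F)) hy
  have hzF' : (sz : F) * (z : F) = (tz : F) * (b : F) ^ kz := by
    exact_mod_cast congrArg (fun z : R => (z : F)) hz
  -- orders
  have hordy : v.ord (y : F) = ky := by
    have := congrArg v.ord hyF'
    rw [v.ord_mul hsyF hyF, v.ord_mul htyF (pow_ne_zero ky hbF),
      ord_eq_zero_of_ev_ne_zero h sy hsy, ord_eq_zero_of_ev_ne_zero h ty hty, zero_add, zero_add,
      ← zpow_natCast, v.ord_zpow, hb1, mul_one] at this
    exact this
  have hordz : v.ord (z : F) = kz := by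
    have := congrArg v.ord hzF'
    rw [v.ord_mul hszF hzF, v.ord_mul htzF (pow_ne_zero kz hbF),
      ord_eq_zero_of_ev_ne_zero h sz hsz, ord_eq_zero_of_ev_ne_zero h tz htz, zero_add, zero_add,
      ← zpow_natCast, v.ord_zpow, hb1, mul_one] at this
    exact this
  have hordx : 0 ≤ v.ord x := (Fermat.Agent.S24.PlaceExtend.mem_iff_ord_nonneg v hx0).1 hx
  have hk : kz ≤ ky := by
    have h1 : v.ord (y : F) = v.ord x + v.ord (z : F) := by
      rw [← hyz, v.ord_mul hx0 hzF]
    rw [hordy, hordz] at h1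
    omega
  obtain ⟨d, rfl⟩ := Nat.exists_eq_add_of_le hk
  refine ⟨sz * ty * b ^ d, tz * sy, ?_, ?_⟩
  · rw [map_mul]
    exact mul_ne_zero htz hsy
  · -- `x * (tz * sy) = sz * ty * b ^ d`
    have hbk : (b : F) ^ kz ≠ 0 := pow_ne_zero kz hbF
    apply mul_right_cancel₀ hbk
    push_cast
    calc x * ((tz : F) * (sy : F)) * (b : F) ^ kz
        = (sy : F) * (x * ((tz : F) * (b : F) ^ kz)) := by ring
      _ = (sy : F) * (x * ((sz : F) * (z : F))) := by rw [hzF']
      _ = (sz : F) * ((sy : F) * (x * (z : F))) := by ring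
      _ = (sz : F) * ((sy : F) * (y : F)) := by rw [hyz]
      _ = (sz : F) * ((ty : F) * (b : F) ^ (kz + d)) := by rw [hyF']
      _ = (sz : F) * (ty : F) * (b : F) ^ d * (b : F) ^ kz := by rw [pow_add]; ring

end Generates


/-! ### The second half of (Loc-P): uniqueness of the place through a generator -/

section Unique

variable {R : Subalgebra O F} {v : Place K F}
  {hv : Function.Bijective (algebraMap K v.ResidueField)}

theorem sub_mem_nonunits' (v' : Place K F) {x y : F} (hx : x ∈ v'.toValuationSubring.nonunits)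
    (hy : y ∈ v'.toValuationSubring.nonunits) : x - y ∈ v'.toValuationSubring.nonunits := by
  rw [ValuationSubring.mem_nonunits_iff] at hx hy ⊢
  exact Valuation.map_sub_lt _ hx hy

/-- A nonzero constant is a unit at every place. -/
theorem algebraMap_not_mem_nonunits (v' : Place K F) {c : K} (hc : c ≠ 0) :
    algebraMap K F c ∉ v'.toValuationSubring.nonunits := by
  intro hmem
  rw [ValuationSubring.mem_nonunits_iff] at hmem
  have h1 : v'.toValuationSubring.valuation (algebraMap K F c⁻¹) ≤ 1 :=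
    (ValuationSubring.valuation_le_one_iff _ _).mpr (v'.algebraMap_mem' c⁻¹)
  have h2 : v'.toValuationSubring.valuation (algebraMap K F c) *
      v'.toValuationSubring.valuation (algebraMap K F c⁻¹) = 1 := by
    rw [← map_mul, ← map_mul, mul_inv_cancel₀ hc, map_one, map_one]
  have h3 : v'.toValuationSubring.valuation (algebraMap K F c) *
      v'.toValuationSubring.valuation (algebraMap K F c⁻¹) < 1 :=
    mul_lt_one_of_lt_of_le hmem h1
  rw [h2] at h3
  exact lt_irrefl _ h3

/-- A constant of `O` lying in the maximal ideal of a place is zero. -/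
theorem eq_zero_of_algebraMap_mem_nonunits (v' : Place K F) {a : O}
    (ha : algebraMap O F a ∈ v'.toValuationSubring.nonunits) : a = 0 := by
  by_contra ha0
  have hc : algebraMap O K a ≠ 0 := fun h0 =>
    ha0 (IsFractionRing.injective O K (by rw [h0, map_zero]))
  rw [IsScalarTower.algebraMap_apply O K F] at ha
  exact algebraMap_not_mem_nonunits v' hc ha

/-- An element of `O_{v'}` outside the maximal ideal has valuation one. -/
theorem valuation_eq_one_of_not_mem_nonunits (v' : Place K F) {s : F}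
    (hs : s ∈ v'.toValuationSubring) (hs' : s ∉ v'.toValuationSubring.nonunits) :
    v'.toValuationSubring.valuation s = 1 := by
  rw [ValuationSubring.mem_nonunits_iff, not_lt] at hs'
  exact le_antisymm ((ValuationSubring.valuation_le_one_iff _ _).mpr hs) hs'

/-- The kernel of a section is nonzero (the function field is not the constant field). -/
theorem exists_ne_zero_ev_eq_zero (h : IsSection R v hv)
    (hfrac : ∀ x : F, ∃ y z : R, z ≠ 0 ∧ x * (z : F) = (y : F)) :
    ∃ y : R, y ≠ 0 ∧ ev h y = 0 := by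
  by_contra hcon
  have hcon : ∀ y : R, y ≠ 0 → ev h y ≠ 0 := fun y hy hy0 => hcon ⟨y, hy, hy0⟩
  have hconst : ∀ y : R, y = algebraMap O ↥R (ev h y) := by
    intro y
    by_contra hne
    have h1 : y - algebraMap O ↥R (ev h y) ≠ 0 := sub_ne_zero.mpr hne
    apply hcon _ h1
    rw [map_sub, AlgHom.commutes, Algebra.algebraMap_self, RingHom.id_apply, sub_self]
  apply v.ne_top'
  refine SetLike.ext fun x => ⟨fun _ => ValuationSubring.mem_top x, fun _ => ?_⟩
  obtain ⟨y, z, hz0, hyz⟩ := hfrac x
  have hzF : (z : F) ≠ 0 := fun h0 => hz0 (Subtype.ext h0)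
  have hy : (y : F) = algebraMap K F (algebraMap O K (ev h y)) := by
    conv_lhs => rw [hconst y]
    rw [← IsScalarTower.algebraMap_apply]
    rfl
  have hz : (z : F) = algebraMap K F (algebraMap O K (ev h z)) := by
    conv_lhs => rw [hconst z]
    rw [← IsScalarTower.algebraMap_apply]
    rfl
  have hx : x = algebraMap K F (algebraMap O K (ev h y) * (algebraMap O K (ev h z))⁻¹) := by
    rw [map_mul, map_inv₀, ← hy, ← hz, ← hyz, mul_assoc, mul_inv_cancel₀ hzF, mul_one]
  rw [hx]
  exact v.algebraMap_mem' _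

/-- **A place through which the kernel of a section vanishes is that section**, provided `O_v`
is the localisation of the chart at the kernel. -/
theorem place_eq_of_ker_le (h : IsSection R v hv)
    (hloc : ∀ x ∈ v.toValuationSubring, ∃ a s : R, ev h s ≠ 0 ∧ x * (s : F) = (a : F))
    (v' : Place K F) (hR : ∀ r : R, (r : F) ∈ v'.toValuationSubring)
    (hker : ∀ r : R, ev h r = 0 → (r : F) ∈ v'.toValuationSubring.nonunits) : v' = v := by
  -- the prime `𝔪_{v'} ∩ R` is the kernel of the section
  have hker' : ∀ r : R, (r : F) ∈ v'.toValuationSubring.nonunits → ev h r = 0 := by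
    intro r hr
    have h1 : ev h (r - algebraMap O ↥R (ev h r)) = 0 := by
      rw [map_sub, AlgHom.commutes, Algebra.algebraMap_self, RingHom.id_apply, sub_self]
    have h2 := hker _ h1
    have h3 : algebraMap O F (ev h r) ∈ v'.toValuationSubring.nonunits := by
      have := sub_mem_nonunits' v' hr h2
      have e : (r : F) - ((r - algebraMap O ↥R (ev h r) : R) : F) = algebraMap O F (ev h r) := by
        push_cast
        rw [sub_sub_cancel]
      rwa [e] at this
    exact eq_zero_of_algebraMap_mem_nonunits v' h3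
  symm
  apply Fermat.Agent.N4F.A.FundIdentity.eq_of_le
  intro x hx
  obtain ⟨a, s, hs, hxs⟩ := hloc x hx
  have hs' : (s : F) ∉ v'.toValuationSubring.nonunits := fun hmem => hs (hker' s hmem)
  have hval := valuation_eq_one_of_not_mem_nonunits v' (hR s) hs'
  have hsF : (s : F) ≠ 0 := coe_ne_zero_of_ev_ne_zero h hs
  have hxe : x = (a : F) * ((s : F))⁻¹ := by
    rw [← hxs, mul_assoc, mul_inv_cancel₀ hsF, mul_one]
  rw [hxe, ← ValuationSubring.valuation_le_one_iff, map_mul, map_inv₀, hval, inv_one, mul_one]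
  exact (ValuationSubring.valuation_le_one_iff _ _).mpr (hR a)

/-- **(Loc-P), uniqueness**: if `b` generates the kernel of the section `v` up to units at `v`,
and `v'` is a place containing the chart at which `b` vanishes and at which `b` generates the
kernel up to units at `v'`, then `v' = v`. -/
theorem place_eq_of_mem_nonunits (h : IsSection R v hv) (b : R) (hb0 : b ≠ 0)
    (hb : ev h b = 0) (hgen : Generates h b)
    (hfrac : ∀ x : F, ∃ y z : R, z ≠ 0 ∧ x * (z : F) = (y : F))
    (v' : Place K F) (hR : ∀ r : R, (r : F) ∈ v'.toValuationSubring)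
    (hb' : (b : F) ∈ v'.toValuationSubring.nonunits)
    (hgen' : ∀ y : R, ev h y = 0 →
      ∃ s t : R, (s : F) ∉ v'.toValuationSubring.nonunits ∧ s * y = t * b) : v' = v := by
  refine place_eq_of_ker_le h
    (fun x hx => exists_frac_of_generates h b hb0 hb hgen hfrac hx) v' hR ?_
  intro y hy
  obtain ⟨s, t, hs, hst⟩ := hgen' y hy
  have hval := valuation_eq_one_of_not_mem_nonunits v' (hR s) hs
  have h1 : (s : F) * (y : F) = (t : F) * (b : F) := by
    exact_mod_cast congrArg (fun z : R => (z : F)) hst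
  rw [ValuationSubring.mem_nonunits_iff] at hb' ⊢
  have h2 : v'.toValuationSubring.valuation ((s : F) * (y : F)) < 1 := by
    rw [h1, mul_comm, map_mul]
    exact mul_lt_one_of_lt_of_le hb' ((ValuationSubring.valuation_le_one_iff _ _).mpr (hR t))
  rwa [map_mul, hval, one_mul] at h2

/-- **(Loc-P), the order at the other places**: under the hypotheses of
`place_eq_of_mem_nonunits` (for every place `v'` of a class `C` of places containing the chart),
`ord_{v'} b = 0` for `v' ∈ C`, `v' ≠ v`. -/
theorem ord_eq_zero_of_ne (h : IsSection R v hv) (b : R) (hb0 : b ≠ 0)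
    (hb : ev h b = 0) (hgen : Generates h b)
    (hfrac : ∀ x : F, ∃ y z : R, z ≠ 0 ∧ x * (z : F) = (y : F))
    (v' : Place K F) (hR : ∀ r : R, (r : F) ∈ v'.toValuationSubring)
    (hgen' : (b : F) ∈ v'.toValuationSubring.nonunits → ∀ y : R, ev h y = 0 →
      ∃ s t : R, (s : F) ∉ v'.toValuationSubring.nonunits ∧ s * y = t * b)
    (hne : v' ≠ v) : v'.ord (b : F) = 0 := by
  have hbF : (b : F) ≠ 0 := fun h0 => hb0 (Subtype.ext h0)
  have h1 : 0 ≤ v'.ord (b : F) :=
    (Fermat.Agent.S24.PlaceExtend.mem_iff_ord_nonneg v' hbF).1 (hR b)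
  by_contra hne0
  have hpos : 0 < v'.ord (b : F) := by omega
  have hb' := Fermat.Agent.S24.PlaceExtend.mem_nonunits_of_ord_pos v' hbF hpos
  exact hne (place_eq_of_mem_nonunits h b hb0 hb hgen hfrac v' hR hb' (hgen' hb'))

/-- If `u * w` is a nonzero constant and `u, w ∈ O_{v'}`, then `u` is a unit at `v'`. -/
theorem not_mem_nonunits_of_mul_eq_const (v' : Place K F) {u w : F} {c : O}
    (hw : w ∈ v'.toValuationSubring) (huw : u * w = algebraMap O F c)
    (hc : c ≠ 0) : u ∉ v'.toValuationSubring.nonunits := by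
  intro hu
  have h1 : algebraMap O F c ∈ v'.toValuationSubring.nonunits := by
    rw [← huw, ValuationSubring.mem_nonunits_iff, map_mul]
    rw [ValuationSubring.mem_nonunits_iff] at hu
    exact mul_lt_one_of_lt_of_le hu ((ValuationSubring.valuation_le_one_iff _ _).mpr hw)
  exact hc (eq_zero_of_algebraMap_mem_nonunits v' h1)

end Unique


/-! ### (Loc-P) at an exact node and at a smooth point, from `P3G/NodeLocal` -/

section NodeSmooth

open Fermat.Agent.P3G.NodeLocal

variable {R : Subalgebra O F} {v : Place K F}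
  {hv : Function.Bijective (algebraMap K v.ResidueField)}

theorem hfrac_locAlg (𝔫 : Ideal ↥R) [𝔫.IsPrime]
    (hfrac : ∀ x : F, ∃ y z : R, z ≠ 0 ∧ x * (z : F) = (y : F)) :
    ∀ x : F, ∃ y z : ↥(locAlg R 𝔫), z ≠ 0 ∧ x * (z : F) = (y : F) := by
  intro x
  obtain ⟨y, z, hz, hyz⟩ := hfrac x
  refine ⟨algebraMap ↥R ↥(locAlg R 𝔫) y, algebraMap ↥R ↥(locAlg R 𝔫) z, ?_, hyz⟩
  intro h0
  apply hz
  apply algebraMap_locAlg_injective R 𝔫
  rw [h0, map_zero]

theorem algebraMap_locAlg_coe' (𝔫 : Ideal ↥R) [𝔫.IsPrime] (a : O) :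
    ((algebraMap O ↥(locAlg R 𝔫) a : ↥(locAlg R 𝔫)) : F) = algebraMap O F a := rfl

/-- A place centred at `𝔫` contains the local ring at `𝔫`. -/
theorem centredAt_mem_locAlg {𝔫 : Ideal ↥R} [𝔫.IsPrime] {v' : Place K F}
    (hc : CentredAt R 𝔫 v') (x : ↥(locAlg R 𝔫)) : (x : F) ∈ v'.toValuationSubring :=
  hc _ x.2

/-- **(Loc-P) at an exact node** `𝔪 = (u, w, ϖ)`, `u w = c ≠ 0` of the local ring at the centre
of the section `v`: the function `b_v := u - u(v)` has a simple zero at `v` and is a unit at every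
other place centred at the same point. -/
theorem locP_node [IsNoetherianRing ↥R] (h : IsSection R v hv) {ϖ : O} (hϖ : Irreducible ϖ)
    {u w : ↥(locAlg R (centre h))} {c : O}
    (hm : maximalIdeal ↥(locAlg R (centre h)) =
      Ideal.span {u, w, algebraMap O ↥(locAlg R (centre h)) ϖ})
    (huw : u * w = algebraMap O ↥(locAlg R (centre h)) c) (hc : c ≠ 0)
    (hfrac : ∀ x : F, ∃ y z : R, z ≠ 0 ∧ x * (z : F) = (y : F)) :
    v.ord ((u : F) - algebraMap O F (evLocAlg h u)) = 1 ∧
      ∀ v' : Place K F, CentredAt R (centre h) v' → v' ≠ v →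
        v'.ord ((u : F) - algebraMap O F (evLocAlg h u)) = 0 := by
  haveI : IsNoetherianRing ↥(locAlg R (centre h)) := isNoetherianRing_locAlg R (centre h)
  let φ : ↥(locAlg R (centre h)) →ₐ[O] O := evLocAlg h
  let b : ↥(locAlg R (centre h)) := u - algebraMap O ↥(locAlg R (centre h)) (φ u)
  have hbdef : b = u - algebraMap O ↥(locAlg R (centre h)) (φ u) := rfl
  have hbF : (b : F) = (u : F) - algebraMap O F (evLocAlg h u) := rfl
  have hS' := isSection_locAlg h
  have hfracS := hfrac_locAlg (centre h) hfrac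
  have hbker : ev hS' b = 0 := by
    show φ b = 0
    rw [hbdef, map_sub, AlgHom.commutes, Algebra.algebraMap_self, RingHom.id_apply, sub_self]
  have huF : (u : F) * (w : F) = algebraMap O F c := by
    have := congrArg (fun z : ↥(locAlg R (centre h)) => (z : F)) huw
    exact this
  have hcF : algebraMap O F c ≠ 0 := by
    rw [IsScalarTower.algebraMap_apply O K F]
    exact (map_ne_zero _).mpr
      (fun h0 => hc (IsFractionRing.injective O K (by rw [h0, map_zero])))
  have hu0 : u ≠ 0 := by
    rintro rfl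
    apply hcF
    rw [← huF]
    simp
  have hgen : Generates hS' b := by
    intro y hy
    have hyker : y ∈ RingHom.ker φ := hy
    obtain ⟨t, ht⟩ := Ideal.mem_span_singleton'.mp (Node.mul_ker_le hϖ hm huw φ hyker)
    exact ⟨u, t, Node.map_u_ne_zero huw hc φ, ht.symm⟩
  have hb0 : b ≠ 0 := by
    intro hb0
    obtain ⟨y, hy0, hy⟩ := exists_ne_zero_ev_eq_zero hS' hfracS
    obtain ⟨s, t, -, hst⟩ := hgen y hy
    obtain ⟨t', ht'⟩ := Ideal.mem_span_singleton'.mp
      (Node.mul_ker_le hϖ hm huw φ (show y ∈ RingHom.ker φ from hy))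
    rw [← hbdef, hb0, mul_zero] at ht'
    rcases mul_eq_zero.mp ht'.symm with h1 | h1
    · exact hu0 h1
    · exact hy0 h1
  rw [← hbF]
  refine ⟨ord_eq_one_of_generates_sec hS' b hb0 hbker hgen hfracS, ?_⟩
  intro v' hv' hne
  refine ord_eq_zero_of_ne hS' b hb0 hbker hgen hfracS v' (centredAt_mem_locAlg hv') ?_ hne
  intro _ y hy
  obtain ⟨t, ht⟩ := Ideal.mem_span_singleton'.mp
    (Node.mul_ker_le hϖ hm huw φ (show y ∈ RingHom.ker φ from hy))
  exact ⟨u, t, not_mem_nonunits_of_mul_eq_const v' (centredAt_mem_locAlg hv' w) huF hc, ht.symm⟩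

/-- **(Loc-P) at a smooth point** `𝔪 = (z, ϖ)` of the local ring at the centre of the section
`v`: `b_v := z - z(v)` has a simple zero at `v` and is a unit at every other place centred at the
same point. -/
theorem locP_smooth [IsNoetherianRing ↥R] (h : IsSection R v hv) {ϖ : O} (hϖ : Irreducible ϖ)
    {z : ↥(locAlg R (centre h))}
    (hm : maximalIdeal ↥(locAlg R (centre h)) =
      Ideal.span {z, algebraMap O ↥(locAlg R (centre h)) ϖ})
    (hfrac : ∀ x : F, ∃ y z : R, z ≠ 0 ∧ x * (z : F) = (y : F)) :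
    v.ord ((z : F) - algebraMap O F (evLocAlg h z)) = 1 ∧
      ∀ v' : Place K F, CentredAt R (centre h) v' → v' ≠ v →
        v'.ord ((z : F) - algebraMap O F (evLocAlg h z)) = 0 := by
  haveI : IsNoetherianRing ↥(locAlg R (centre h)) := isNoetherianRing_locAlg R (centre h)
  let φ : ↥(locAlg R (centre h)) →ₐ[O] O := evLocAlg h
  let b : ↥(locAlg R (centre h)) := z - algebraMap O ↥(locAlg R (centre h)) (φ z)
  have hbdef : b = z - algebraMap O ↥(locAlg R (centre h)) (φ z) := rfl
  have hbF : (b : F) = (z : F) - algebraMap O F (evLocAlg h z) := rfl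
  have hS' := isSection_locAlg h
  have hfracS := hfrac_locAlg (centre h) hfrac
  have hbker : ev hS' b = 0 := by
    show φ b = 0
    rw [hbdef, map_sub, AlgHom.commutes, Algebra.algebraMap_self, RingHom.id_apply, sub_self]
  have hker := Smooth.ker_eq hϖ hm φ
  have hgen : Generates hS' b := by
    intro y hy
    have hyker : y ∈ RingHom.ker φ := hy
    rw [hker] at hyker
    obtain ⟨t, ht⟩ := Ideal.mem_span_singleton'.mp hyker
    exact ⟨1, t, by rw [map_one]; exact one_ne_zero, by rw [one_mul, ht]⟩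
  have hb0 : b ≠ 0 := by
    intro hb0
    obtain ⟨y, hy0, hy⟩ := exists_ne_zero_ev_eq_zero hS' hfracS
    have hyker : y ∈ RingHom.ker φ := hy
    rw [hker] at hyker
    obtain ⟨t, ht⟩ := Ideal.mem_span_singleton'.mp hyker
    rw [← hbdef, hb0, mul_zero] at ht
    exact hy0 ht.symm
  rw [← hbF]
  refine ⟨ord_eq_one_of_generates_sec hS' b hb0 hbker hgen hfracS, ?_⟩
  intro v' hv' hne
  refine ord_eq_zero_of_ne hS' b hb0 hbker hgen hfracS v' (centredAt_mem_locAlg hv') ?_ hne
  intro _ y hy
  have hyker : y ∈ RingHom.ker φ := hy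
  rw [hker] at hyker
  obtain ⟨t, ht⟩ := Ideal.mem_span_singleton'.mp hyker
  refine ⟨1, t, ?_, by rw [one_mul, ht]⟩
  intro h1
  have : (1 : F) ∈ v'.toValuationSubring.nonunits := h1
  rw [ValuationSubring.mem_nonunits_iff, map_one] at this
  exact lt_irrefl _ this

end NodeSmooth


/-! ### Semilinear automorphisms -/

section Semilinear

variable {R : Subalgebra O F} {v : Place K F}
  {hv : Function.Bijective (algebraMap K v.ResidueField)}

variable (g : SemilinearAut K F) (gO : O ≃+* O)

/-- `gO` is the restriction of the base automorphism of `g` to `O`. -/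
def BaseCompat : Prop := ∀ a : O, algebraMap O K (gO a) = SemilinearAut.baseAut g (algebraMap O K a)

/-- The chart `R` is stable under `g`. -/
def StableUnder (R : Subalgebra O F) : Prop := ∀ r : F, r ∈ R ↔ g • r ∈ R

variable {g gO}

theorem StableUnder.smul_mem (hR : StableUnder g R) {r : F} (hr : r ∈ R) : g • r ∈ R :=
  (hR r).mp hr

theorem StableUnder.inv_smul_mem (hR : StableUnder g R) {r : F} (hr : r ∈ R) : g⁻¹ • r ∈ R := by
  rw [hR, smul_inv_smul]
  exact hr

theorem BaseCompat.symm_apply (hg : BaseCompat g gO) (a : O) :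
    algebraMap O K (gO.symm a) = (SemilinearAut.baseAut g).symm (algebraMap O K a) := by
  apply (SemilinearAut.baseAut g).injective
  rw [RingEquiv.apply_symm_apply, ← hg, RingEquiv.apply_symm_apply]

/-- `g • v` is a section of the `g`-stable chart `R` if `v` is. -/
theorem isSection_smul (hg : BaseCompat g gO) (hR : StableUnder g R) (h : IsSection R v hv) :
    IsSection R (g • v) (bijective_smul g hv) := by
  intro r hr
  have hr' : g⁻¹ • r ∈ R := hR.inv_smul_mem hr
  obtain ⟨hmem, a, ha⟩ := h _ hr'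
  have hmem' : r ∈ (g • v).toValuationSubring := by
    have := smul_mem_smul g hmem
    rwa [smul_inv_smul] at this
  refine ⟨hmem', gO a, ?_⟩
  have h1 := valueAt_smul g hv hmem
  rw [hg, ha, ← h1]
  exact valueAt_congr (g • v) (bijective_smul g hv) (smul_inv_smul g r) _

/-- **Values at the translated section**: `(g r)(g v) = g (r(v))`. -/
theorem ev_smul (hg : BaseCompat g gO) (hR : StableUnder g R) (h : IsSection R v hv) (r : R) :
    ev (isSection_smul hg hR h) ⟨g • (r : F), hR.smul_mem r.2⟩ = gO (ev h r) := by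
  apply IsFractionRing.injective O K
  rw [algebraMap_ev, hg, algebraMap_ev]
  exact valueAt_smul g hv (h.mem r)

/-- `r(g v) = g ((g⁻¹ r)(v))`. -/
theorem ev_smul' (hg : BaseCompat g gO) (hR : StableUnder g R) (h : IsSection R v hv) (r : R) :
    ev (isSection_smul hg hR h) r = gO (ev h ⟨g⁻¹ • (r : F), hR.inv_smul_mem r.2⟩) := by
  rw [← ev_smul hg hR h]
  congr 1
  apply Subtype.ext
  exact (smul_inv_smul g (r : F)).symm

/-- A ring automorphism of `O` preserves the maximal ideal. -/
theorem map_mem_maximalIdeal_iff (gO : O ≃+* O) (a : O) :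
    gO a ∈ maximalIdeal O ↔ a ∈ maximalIdeal O := by
  rw [mem_maximalIdeal, mem_maximalIdeal, mem_nonunits_iff, mem_nonunits_iff, not_iff_not]
  exact ⟨fun hu => by simpa using hu.map gO.symm, fun hu => hu.map gO⟩

/-- The centre of the translated section is the translate of the centre. -/
theorem mem_centre_smul_iff (hg : BaseCompat g gO) (hR : StableUnder g R) (h : IsSection R v hv)
    (r : R) : r ∈ centre (isSection_smul hg hR h) ↔
      (⟨g⁻¹ • (r : F), hR.inv_smul_mem r.2⟩ : R) ∈ centre h := by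
  rw [mem_centre_iff, mem_centre_iff, ev_smul' hg hR h, map_mem_maximalIdeal_iff]

/-- `g` acts trivially on the special fibre of the chart `R`: `g r - r ∈ ϖ R`. -/
def TrivialMod (g : SemilinearAut K F) (R : Subalgebra O F) (ϖ : O) : Prop :=
  ∀ r ∈ R, ∃ s ∈ R, g • r - r = algebraMap O F ϖ * s

theorem TrivialMod.inv (hR : StableUnder g R) {ϖ : O} (ht : TrivialMod g R ϖ) :
    ∀ r ∈ R, ∃ s ∈ R, r - g⁻¹ • r = algebraMap O F ϖ * s := by
  intro r hr
  obtain ⟨s, hs, hrs⟩ := ht _ (hR.inv_smul_mem hr)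
  rw [smul_inv_smul] at hrs
  exact ⟨s, hs, hrs⟩

/-- **Inertia does not move the centre**: if `g` acts trivially on `R / ϖ R` (`ϖ` in the maximal
ideal of `O`), then the centre of `g • v` is the centre of `v`. -/
theorem centre_smul_eq (hg : BaseCompat g gO) (hR : StableUnder g R) (h : IsSection R v hv)
    {ϖ : O} (hϖ : ϖ ∈ maximalIdeal O) (ht : TrivialMod g R ϖ) :
    centre (isSection_smul hg hR h) = centre h := by
  ext r
  rw [mem_centre_smul_iff hg hR h, mem_centre_iff, mem_centre_iff]
  obtain ⟨s, hs, hrs⟩ := ht.inv hR (r : F) r.2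
  have e : r = (⟨g⁻¹ • (r : F), hR.inv_smul_mem r.2⟩ : R) + algebraMap O ↥R ϖ * ⟨s, hs⟩ := by
    apply Subtype.ext
    push_cast
    show (r : F) = g⁻¹ • (r : F) + algebraMap O F ϖ * s
    rw [← hrs]
    ring
  have e2 : ev h r = ev h (⟨g⁻¹ • (r : F), hR.inv_smul_mem r.2⟩ : R) + ϖ * ev h ⟨s, hs⟩ := by
    conv_lhs => rw [e]
    rw [map_add, map_mul, AlgHom.commutes]
    rfl
  have h3 : ϖ * ev h ⟨s, hs⟩ ∈ maximalIdeal O := Ideal.mul_mem_right _ _ hϖ
  rw [e2]
  constructor
  · intro h1
    exact Ideal.add_mem _ h1 h3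
  · intro h1
    have := Ideal.sub_mem _ h1 h3
    rwa [add_sub_cancel_right] at this

/-- **Inertia preserves the set of places centred at a point of the special fibre** (any place,
rational or not). -/
theorem centredAt_smul (hR : StableUnder g R) {ϖ : O} (ht : TrivialMod g R ϖ)
    (𝔫 : Ideal ↥R) [𝔫.IsPrime] (hϖ𝔫 : algebraMap O ↥R ϖ ∈ 𝔫) {v' : Place K F}
    (hc : CentredAt R 𝔫 v') : CentredAt R 𝔫 (g • v') := by
  rw [centredAt_iff] at hc ⊢
  obtain ⟨h1, h2⟩ := hc
  constructor
  · intro r
    rw [Fermat.Agent.N4F.C.CoeffAut.mem_smul_place_iff]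
    exact h1 ⟨g⁻¹ • (r : F), hR.inv_smul_mem r.2⟩
  · intro r hr
    rw [Fermat.Agent.N4F.C.CoeffAut.mem_nonunits_smul_place_iff] at hr
    have h3 := h2 ⟨g⁻¹ • (r : F), hR.inv_smul_mem r.2⟩ hr
    obtain ⟨s, hs, hrs⟩ := ht.inv hR (r : F) r.2
    have e : r = (⟨g⁻¹ • (r : F), hR.inv_smul_mem r.2⟩ : R) + algebraMap O ↥R ϖ * ⟨s, hs⟩ := by
      apply Subtype.ext
      push_cast
      show (r : F) = g⁻¹ • (r : F) + algebraMap O F ϖ * s
      rw [← hrs]
      ring
    rw [e]
    exact Ideal.add_mem _ h3 (Ideal.mul_mem_right _ _ hϖ𝔫)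

end Semilinear


/-! ### A section is determined by its evaluation -/

section Determined

variable {R : Subalgebra O F} {v v' : Place K F}
  {hv : Function.Bijective (algebraMap K v.ResidueField)}
  {hv' : Function.Bijective (algebraMap K v'.ResidueField)}

/-- Two sections with the same evaluation are equal, if `O_v` is the localisation of the chart at
the kernel of the evaluation (e.g. by (Loc-P), `exists_frac_of_generates`). -/
theorem eq_of_ev_eq_of_loc (h : IsSection R v hv) (h' : IsSection R v' hv')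
    (hloc : ∀ x ∈ v.toValuationSubring, ∃ a s : R, ev h s ≠ 0 ∧ x * (s : F) = (a : F))
    (hev : ∀ r : R, ev h r = ev h' r) : v' = v :=
  place_eq_of_ker_le h hloc v' h'.mem fun r hr => (ev_eq_zero_iff h' r).mp (by rw [← hev]; exact hr)

/-- **Two sections with the same evaluation are equal**, if the generic fibre of the chart is
(contained in) a Dedekind domain `RK` with fraction field `F`, every element of which is a
constant multiple of an element of the chart. -/
theorem eq_of_ev_eq {RK : Type*} [CommRing RK] [IsDedekindDomain RK] [Algebra RK F]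
    [IsFractionRing RK F] [Algebra K RK] [IsScalarTower K RK F]
    (hspan : ∀ x : RK, ∃ (a : O) (r : R), a ≠ 0 ∧ algebraMap O F a * algebraMap RK F x = (r : F))
    (h : IsSection R v hv) (h' : IsSection R v' hv')
    (hev : ∀ r : R, ev h r = ev h' r) : v = v' := by
  -- a nonzero constant is a unit at every place
  have hunit : ∀ (w : Place K F) (a : O), a ≠ 0 →
      w.toValuationSubring.valuation (algebraMap O F a) = 1 := by
    intro w a ha
    have hc : algebraMap O K a ≠ 0 := fun h0 =>
      ha (IsFractionRing.injective O K (by rw [h0, map_zero]))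
    rw [IsScalarTower.algebraMap_apply O K F]
    exact valuation_eq_one_of_not_mem_nonunits w (w.algebraMap_mem' _)
      (algebraMap_not_mem_nonunits w hc)
  have hmem : ∀ (w : Place K F) (hw : Function.Bijective (algebraMap K w.ResidueField)),
      IsSection R w hw → ∀ x : RK, algebraMap RK F x ∈ w.toValuationSubring := by
    intro w hw hsec x
    obtain ⟨a, r, ha, har⟩ := hspan x
    have h1 := (ValuationSubring.valuation_le_one_iff _ _).mpr (hsec.mem r)
    rw [← har, map_mul, hunit w a ha, one_mul] at h1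
    exact (ValuationSubring.valuation_le_one_iff _ _).mp h1
  have hnon : ∀ (w : Place K F) (hw : Function.Bijective (algebraMap K w.ResidueField))
      (hsec : IsSection R w hw) (x : RK) (a : O) (r : R), a ≠ 0 →
      algebraMap O F a * algebraMap RK F x = (r : F) →
      (algebraMap RK F x ∈ w.toValuationSubring.nonunits ↔ ev hsec r = 0) := by
    intro w hw hsec x a r ha har
    rw [ev_eq_zero_iff, ValuationSubring.mem_nonunits_iff, ValuationSubring.mem_nonunits_iff,
      ← har, map_mul, hunit w a ha, one_mul]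
  have hR : ∀ x : RK, algebraMap RK F x ∈ v.toValuationSubring := hmem v hv h
  have hR' : ∀ x : RK, algebraMap RK F x ∈ v'.toValuationSubring := hmem v' hv' h'
  have hcen : Fermat.Agent.S24.centerSpec v hR = Fermat.Agent.S24.centerSpec v' hR' := by
    apply IsDedekindDomain.HeightOneSpectrum.ext
    show Fermat.Agent.S24.center v hR = Fermat.Agent.S24.center v' hR'
    ext x
    rw [Fermat.Agent.S24.mem_center_iff, Fermat.Agent.S24.mem_center_iff]
    obtain ⟨a, r, ha, har⟩ := hspan x
    have e1 := hnon v hv h x a r ha har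
    have e2 := hnon v' hv' h' x a r ha har
    have m1 : (⟨algebraMap RK F x, hR x⟩ : v.toValuationSubring) ∈
        IsLocalRing.maximalIdeal v.toValuationSubring ↔
        algebraMap RK F x ∈ v.toValuationSubring.nonunits := by
      rw [ValuationSubring.mem_nonunits_iff_exists_mem_maximalIdeal]
      exact ⟨fun hx => ⟨hR x, hx⟩, fun ⟨_, hx⟩ => hx⟩
    have m2 : (⟨algebraMap RK F x, hR' x⟩ : v'.toValuationSubring) ∈
        IsLocalRing.maximalIdeal v'.toValuationSubring ↔
        algebraMap RK F x ∈ v'.toValuationSubring.nonunits := by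
      rw [ValuationSubring.mem_nonunits_iff_exists_mem_maximalIdeal]
      exact ⟨fun hx => ⟨hR' x, hx⟩, fun ⟨_, hx⟩ => hx⟩
    rw [m1, m2, e1, e2, hev]
  rw [← Fermat.Agent.S24.ofHeightOneSpectrum_centerSpec v hR,
    ← Fermat.Agent.S24.ofHeightOneSpectrum_centerSpec v' hR', hcen]

/-- **A section fixed by a semilinear automorphism**: if `(g r)(v) = g (r(v))`-twisted evaluation
agrees with the evaluation of `v`, i.e. `r(v) = g ((g⁻¹ r)(v))` for all `r` in the chart, then
`g • v = v`. -/
theorem smul_eq_of_ev_eq {RK : Type*} [CommRing RK] [IsDedekindDomain RK] [Algebra RK F]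
    [IsFractionRing RK F] [Algebra K RK] [IsScalarTower K RK F]
    (hspan : ∀ x : RK, ∃ (a : O) (r : R), a ≠ 0 ∧ algebraMap O F a * algebraMap RK F x = (r : F))
    {g : SemilinearAut K F} {gO : O ≃+* O} (hg : BaseCompat g gO) (hR : StableUnder g R)
    (h : IsSection R v hv)
    (hev : ∀ r : R, gO (ev h r) = ev h ⟨g • (r : F), hR.smul_mem r.2⟩) : g • v = v := by
  refine eq_of_ev_eq hspan (isSection_smul hg hR h) h ?_
  intro r
  rw [ev_smul' hg hR h, hev]
  congr 1
  apply Subtype.ext
  exact smul_inv_smul g (r : F)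

end Determined


end Fermat.Agent.G.PointsLoc
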