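/-
P3-G, block (G-P)/(G-X3), part 3 (helper9): **(Loc-P) in the language of places**, from the
ring-theoretic outputs of `P3G/NodeLocP` (helper16) and `P3G/SectionRegChart` (helper29).

* `vIdeal S v'` : the prime `𝔪_{v'} ∩ S` of a subalgebra `S ⊆ O_{v'}`.
* `hreg_locAlg` : helper16's hypothesis `hreg` (one local generator of `ker φ` with a UNIFORM
  cofactor) for `S = locAlg R (centre h)`, `φ = evLocAlg h`, from a chart-level local generator
  (`PointsLoc.Generates h g`, the output shape of `SectionRegChart.exists_generator`).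
* `locP_of_prime` : the output of `NodeLocP.exists_locP_prime` (clauses 3 and 4) gives
  `ord_v b = 1` and `ord_{v'} b = 0` for every other place `v'` centred at the same point.
* `exists_locP_place` : the composition, in the shape `hb0/hb1/hb2` of
  `SecondDiff.exists_localRoot_strong`.
-/
import Mathlib
import Fermat.Agent.G.PointsLoc
import Fermat.Agent.P3G.NodeLocP

set_option autoImplicit false
set_option linter.unusedSectionVars false
set_option linter.style.haveILetI false

open AlgebraicCurve IsLocalRing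

noncomputable section

namespace Fermat.Agent.G.PointsLocP

open Fermat.Agent.N4F.E.EvalAt Fermat.Agent.N4F.E.PlaceValue Fermat.Agent.G.Points
  Fermat.Agent.G.PointsLoc

variable {O K F : Type*} [CommRing O] [IsDomain O] [IsDiscreteValuationRing O]
  [Field K] [Algebra O K] [IsFractionRing O K]
  [Field F] [Algebra K F] [Algebra O F] [IsScalarTower O K F]

/-! ### The prime of a subalgebra cut out by a place -/

section VIdeal

/-- `𝔪_{v'} ∩ S` for a subalgebra `S ⊆ O_{v'}`. -/
def vIdeal (S : Subalgebra O F) (v' : Place K F) (hS : ∀ x : S, (x : F) ∈ v'.toValuationSubring) :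
    Ideal ↥S where
  carrier := {x | (x : F) ∈ v'.toValuationSubring.nonunits}
  zero_mem' := zero_mem_nonunits' v'
  add_mem' := by
    intro a b ha hb
    have ha' : (a : F) ∈ v'.toValuationSubring.nonunits := ha
    have hb' : (b : F) ∈ v'.toValuationSubring.nonunits := hb
    have : (a : F) - (-(b : F)) ∈ v'.toValuationSubring.nonunits := by
      refine sub_mem_nonunits' v' ha' ?_
      rw [ValuationSubring.mem_nonunits_iff] at hb' ⊢
      rwa [Valuation.map_neg]
    simpa using this
  smul_mem' := by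
    intro c a ha
    have ha : (a : F) ∈ v'.toValuationSubring.nonunits := ha
    show ((c * a : S) : F) ∈ v'.toValuationSubring.nonunits
    rw [ValuationSubring.mem_nonunits_iff] at ha ⊢
    push_cast
    rw [mul_comm, map_mul]
    exact mul_lt_one_of_lt_of_le ha ((ValuationSubring.valuation_le_one_iff _ _).mpr (hS c))

theorem mem_vIdeal_iff {S : Subalgebra O F} {v' : Place K F}
    {hS : ∀ x : S, (x : F) ∈ v'.toValuationSubring} {x : S} :
    x ∈ vIdeal S v' hS ↔ (x : F) ∈ v'.toValuationSubring.nonunits := Iff.rfl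

theorem vIdeal_isPrime (S : Subalgebra O F) (v' : Place K F)
    (hS : ∀ x : S, (x : F) ∈ v'.toValuationSubring) : (vIdeal S v' hS).IsPrime := by
  refine ⟨fun h => ?_, fun {a b} hab => ?_⟩
  · have h1 : (1 : S) ∈ vIdeal S v' hS := by rw [h]; trivial
    rw [mem_vIdeal_iff, ValuationSubring.mem_nonunits_iff] at h1
    simp at h1
  · rw [mem_vIdeal_iff] at hab
    by_contra hcon
    rw [not_or] at hcon
    obtain ⟨ha, hb⟩ := hcon
    have h1 := valuation_eq_one_of_not_mem_nonunits v' (hS a) ha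
    have h2 := valuation_eq_one_of_not_mem_nonunits v' (hS b) hb
    rw [ValuationSubring.mem_nonunits_iff] at hab
    push_cast at hab
    rw [map_mul, h1, h2, one_mul] at hab
    exact lt_irrefl _ hab

/-- A nonzero constant of `O` is not in `𝔪_{v'} ∩ S`. -/
theorem algebraMap_not_mem_vIdeal (S : Subalgebra O F) (v' : Place K F)
    (hS : ∀ x : S, (x : F) ∈ v'.toValuationSubring) {a : O} (ha : a ≠ 0) :
    algebraMap O ↥S a ∉ vIdeal S v' hS := fun hmem =>
  ha (eq_zero_of_algebraMap_mem_nonunits v' hmem)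

end VIdeal

theorem hfrac_of_isFractionRing (R : Subalgebra O F) [IsFractionRing ↥R F] :
    ∀ x : F, ∃ y z : R, z ≠ 0 ∧ x * (z : F) = (y : F) := by
  intro x
  obtain ⟨a, b, hb, rfl⟩ := IsFractionRing.div_surjective (A := ↥R) x
  have hb0 : b ≠ 0 := nonZeroDivisors.ne_zero hb
  have hbF : algebraMap ↥R F b ≠ 0 := by
    rw [Ne, FaithfulSMul.algebraMap_eq_zero_iff]; exact hb0
  exact ⟨a, b, hb0, div_mul_cancel₀ _ hbF⟩

/-! ### `hreg` for the local ring at the centre -/

section Reg

variable {R : Subalgebra O F} {v : Place K F}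
  {hv : Function.Bijective (algebraMap K v.ResidueField)}

/-- Elements of the kernel of the evaluation on the local ring are fractions with numerator in the
kernel of the evaluation on the chart. -/
theorem exists_num_of_evLocAlg_eq_zero (h : IsSection R v hv) (z : ↥(locAlg R (centre h)))
    (hz : evLocAlg h z = 0) :
    ∃ a b : R, b ∉ centre h ∧ ev h a = 0 ∧ (z : F) * (b : F) = (a : F) := by
  obtain ⟨a, b, hb, hzab⟩ := (mem_locAlg_iff R (centre h)).1 z.2
  refine ⟨a, b, hb, ?_, hzab⟩
  have h1 : z * algebraMap ↥R ↥(locAlg R (centre h)) b =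
      algebraMap ↥R ↥(locAlg R (centre h)) a := Subtype.ext hzab
  have h2 := congrArg (evLocAlg h) h1
  rw [map_mul, hz, zero_mul, evLocAlg_algebraMap] at h2
  exact h2.symm

/-- **(REG) in helper16's shape**: a chart-level local generator `g` of the kernel of a section
gives, in the local ring at the centre, a generator of the kernel of the evaluation with a uniform
cofactor. -/
theorem hreg_locAlg [IsNoetherianRing ↥R] (h : IsSection R v hv) (g : R) (hg : ev h g = 0)
    (hgen : Generates h g) :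
    ∃ g' ∈ RingHom.ker ((evLocAlg h : ↥(locAlg R (centre h)) →ₐ[O] O) :
        ↥(locAlg R (centre h)) →+* O),
      ∃ r, r ∉ RingHom.ker ((evLocAlg h : ↥(locAlg R (centre h)) →ₐ[O] O) :
          ↥(locAlg R (centre h)) →+* O) ∧
        ∀ z ∈ RingHom.ker ((evLocAlg h : ↥(locAlg R (centre h)) →ₐ[O] O) :
          ↥(locAlg R (centre h)) →+* O), r * z ∈ Ideal.span {g'} := by
  classical
  haveI : IsNoetherianRing ↥(locAlg R (centre h)) := isNoetherianRing_locAlg R (centre h)
  set g' : ↥(locAlg R (centre h)) := algebraMap ↥R ↥(locAlg R (centre h)) g with hg'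
  set 𝔮 : Ideal ↥(locAlg R (centre h)) :=
    RingHom.ker ((evLocAlg h : ↥(locAlg R (centre h)) →ₐ[O] O) :
      ↥(locAlg R (centre h)) →+* O) with h𝔮
  have hmem𝔮 : ∀ z, z ∈ 𝔮 ↔ evLocAlg h z = 0 := fun z => by
    rw [h𝔮, RingHom.mem_ker]; rfl
  -- pointwise cofactors
  have hpt : ∀ z ∈ 𝔮, ∃ s : ↥(locAlg R (centre h)), evLocAlg h s ≠ 0 ∧ s * z ∈ Ideal.span {g'} := by
    intro z hz
    obtain ⟨a, b, hb, ha, hzab⟩ := exists_num_of_evLocAlg_eq_zero h z ((hmem𝔮 z).1 hz)
    obtain ⟨s, t, hs, hst⟩ := hgen a ha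
    refine ⟨algebraMap ↥R ↥(locAlg R (centre h)) s, ?_, ?_⟩
    · rw [evLocAlg_algebraMap]; exact hs
    · rw [Ideal.mem_span_singleton']
      have hb0 : (b : F) ≠ 0 := by
        intro h0
        apply hb
        have : b = 0 := Subtype.ext h0
        rw [this]; exact (centre h).zero_mem
      refine ⟨⟨(t : F) * ((b : F))⁻¹,
        (locAlg R (centre h)).mul_mem (le_locAlg R (centre h) t.2)
          (inv_mem_locAlg R (centre h) hb)⟩, ?_⟩
      apply Subtype.ext
      show (t : F) * ((b : F))⁻¹ * (g : F) = (s : F) * (z : F)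
      have h1 : (s : F) * (a : F) = (t : F) * (g : F) := by
        exact_mod_cast congrArg (fun z : R => (z : F)) hst
      have h2 : (z : F) = (a : F) * ((b : F))⁻¹ := by
        rw [← hzab, mul_assoc, mul_inv_cancel₀ hb0, mul_one]
      rw [h2, ← mul_assoc, h1]
      ring
  -- finitely many generators
  obtain ⟨T, hT⟩ := (IsNoetherian.noetherian 𝔮 : 𝔮.FG)
  have hTmem : ∀ z ∈ T, z ∈ 𝔮 := fun z hz => by
    rw [← hT]; exact Ideal.subset_span hz
  choose! s hs1 hs2 using hpt
  refine ⟨g', ?_, ∏ z ∈ T, s z, ?_, ?_⟩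
  · rw [hmem𝔮, hg', evLocAlg_algebraMap, hg]
  · rw [hmem𝔮, map_prod]
    exact Finset.prod_ne_zero_iff.2 fun z hz => hs1 z (hTmem z hz)
  · intro z hz
    rw [← hT] at hz
    -- the set of `z` with `r z ∈ (g')` is an ideal containing `T`
    have hle : Ideal.span (T : Set ↥(locAlg R (centre h))) ≤
        Submodule.comap (LinearMap.mulLeft ↥(locAlg R (centre h)) (∏ z ∈ T, s z))
          (Ideal.span {g'} : Ideal ↥(locAlg R (centre h))) := by
      rw [Ideal.span_le]
      intro z hzT
      rw [SetLike.mem_coe, Submodule.mem_comap, LinearMap.mulLeft_apply]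
      obtain ⟨c, hc⟩ := Finset.dvd_prod_of_mem s hzT
      rw [hc, mul_comm (s z) c, mul_assoc]
      exact Ideal.mul_mem_left _ _ (hs2 z (hTmem z hzT))
    have := hle hz
    rwa [Submodule.mem_comap, LinearMap.mulLeft_apply] at this

end Reg

/-! ### From the ring-theoretic (Loc-P) to places -/

section Places

open Fermat.Agent.P3G.NodeDeform Fermat.Agent.P3G.NodeLocP

variable {R : Subalgebra O F} {v : Place K F}
  {hv : Function.Bijective (algebraMap K v.ResidueField)}

/-- **(Loc-P) for places, from its ring-theoretic form** (the output of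
`NodeLocP.exists_locP_prime`, clauses 3 and 4): if `b` lies in the kernel `𝔮` of the evaluation
on a subalgebra `S` at which `v` is a section, `y 𝔮 ⊆ (b)` for some `y ∉ 𝔮`, and every prime of `S`
containing `b` but not `ϖ` contains `𝔮`, then `b ≠ 0`, `ord_v b = 1`, and `ord_{v'} b = 0` for
every other place `v'` whose valuation ring contains `S`. -/
theorem locP_of_prime_sec {S : Subalgebra O F} (h : IsSection S v hv) {ϖ : O} (hϖ0 : ϖ ≠ 0)
    (hfrac : ∀ x : F, ∃ y z : S, z ≠ 0 ∧ x * (z : F) = (y : F))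
    (b : S) (hb : ev h b = 0)
    (h3 : ∃ y : S, ev h y ≠ 0 ∧ ∀ z : S, ev h z = 0 → y * z ∈ Ideal.span {b})
    (h4 : ∀ q : Ideal ↥S, q.IsPrime → b ∈ q → algebraMap O ↥S ϖ ∉ q →
      ∀ z : S, ev h z = 0 → z ∈ q) :
    (b : F) ≠ 0 ∧ v.ord (b : F) = 1 ∧
      ∀ v' : Place K F, (∀ x : S, (x : F) ∈ v'.toValuationSubring) → v' ≠ v →
        v'.ord (b : F) = 0 := by
  obtain ⟨y, hy, hyz⟩ := h3
  have hgen : Generates h b := fun z hz => by
    obtain ⟨t, ht⟩ := Ideal.mem_span_singleton'.mp (hyz z hz)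
    exact ⟨y, t, hy, ht.symm⟩
  have hb0 : b ≠ 0 := by
    intro hb0
    obtain ⟨z, hz0, hz⟩ := exists_ne_zero_ev_eq_zero h hfrac
    obtain ⟨t, ht⟩ := Ideal.mem_span_singleton'.mp (hyz z hz)
    rw [hb0, mul_zero] at ht
    rcases mul_eq_zero.mp ht.symm with h1 | h1
    · apply hy
      rw [h1, map_zero]
    · exact hz0 h1
  have hbF : (b : F) ≠ 0 := fun h0 => hb0 (Subtype.ext h0)
  refine ⟨hbF, ord_eq_one_of_generates_sec h b hb0 hb hgen hfrac, ?_⟩
  intro v' hS hne
  have h1 : 0 ≤ v'.ord (b : F) :=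
    (Fermat.Agent.S24.PlaceExtend.mem_iff_ord_nonneg v' hbF).1 (hS b)
  by_contra hne0
  have hpos : 0 < v'.ord (b : F) := by omega
  have hb' := Fermat.Agent.S24.PlaceExtend.mem_nonunits_of_ord_pos v' hbF hpos
  apply hne
  refine place_eq_of_ker_le h
    (fun x hx => exists_frac_of_generates h b hb0 hb hgen hfrac hx) v' hS ?_
  intro z hz
  exact h4 (vIdeal S v' hS) (vIdeal_isPrime S v' hS) hb'
    (algebraMap_not_mem_vIdeal S v' hS hϖ0) z hz

/-- The same for the local ring at the centre of a section of a chart `R`, with the places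
centred at that point. -/
theorem locP_of_prime (h : IsSection R v hv) {ϖ : O} (hϖ0 : ϖ ≠ 0)
    (hfrac : ∀ x : F, ∃ y z : R, z ≠ 0 ∧ x * (z : F) = (y : F))
    (b : ↥(locAlg R (centre h))) (hb : evLocAlg h b = 0)
    (h3 : ∃ y : ↥(locAlg R (centre h)), evLocAlg h y ≠ 0 ∧
      ∀ z : ↥(locAlg R (centre h)), evLocAlg h z = 0 → y * z ∈ Ideal.span {b})
    (h4 : ∀ q : Ideal ↥(locAlg R (centre h)), q.IsPrime → b ∈ q →
      algebraMap O ↥(locAlg R (centre h)) ϖ ∉ q →
      ∀ z : ↥(locAlg R (centre h)), evLocAlg h z = 0 → z ∈ q) :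
    (b : F) ≠ 0 ∧ v.ord (b : F) = 1 ∧
      ∀ v' : Place K F, CentredAt R (centre h) v' → v' ≠ v → v'.ord (b : F) = 0 := by
  obtain ⟨h0, h1, h2⟩ := locP_of_prime_sec (isSection_locAlg h) hϖ0
    (hfrac_locAlg (centre h) hfrac) b hb h3 h4
  exact ⟨h0, h1, fun v' hv' hne => h2 v' (centredAt_mem_locAlg hv') hne⟩

/-- `ϖ` lies in the maximal ideal of the local ring at the centre of a section. -/
theorem algebraMap_mem_maximalIdeal_locAlg (h : IsSection R v hv) {ϖ : O}
    (hϖ : ϖ ∈ maximalIdeal O) :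
    algebraMap O ↥(locAlg R (centre h)) ϖ ∈ maximalIdeal ↥(locAlg R (centre h)) := by
  have e : algebraMap O ↥(locAlg R (centre h)) ϖ =
      algebraMap ↥R ↥(locAlg R (centre h)) (algebraMap O ↥R ϖ) := rfl
  rw [e, algebraMap_mem_maximalIdeal_locAlg_iff, algebraMap_mem_centre_iff]
  exact hϖ

/-- **(Loc-P) at a crossing point, for places** (`hb0/hb1/hb2` of
`SecondDiff.exists_localRoot_strong`): let `v` be a rational place which is a section of the
chart `R`, `S` the local ring of `R` at its centre, with `𝔪_S = (u, w, ϖ)` and residue field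
`O / ϖ` (`RatGen`), `u w ∈ ϖ S`, the node syzygy property, and a chart-level local generator `g`
of the kernel of the section ((REG), `SectionRegChart.exists_generator`).  Then there is
`b ∈ S`, congruent to `u` or to `w` modulo `ϖ`, with `ord_v b = 1` and `ord_{v'} b = 0` for every
other place `v'` centred at the same point. -/
theorem exists_locP_place [IsNoetherianRing ↥R] (h : IsSection R v hv) {ϖ : O}
    (hirr : Irreducible ϖ)
    (hfrac : ∀ x : F, ∃ y z : R, z ≠ 0 ∧ x * (z : F) = (y : F))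
    {u w : ↥(locAlg R (centre h))}
    (hu : u ∈ maximalIdeal ↥(locAlg R (centre h)))
    (hw : w ∈ maximalIdeal ↥(locAlg R (centre h)))
    (hH : RatGen ϖ u w)
    (huw : u * w ∈ Ideal.span {algebraMap O ↥(locAlg R (centre h)) ϖ})
    (hNS : NodeSyz ϖ u w)
    (g : R) (hg : ev h g = 0) (hgen : Generates h g) :
    ∃ b : ↥(locAlg R (centre h)),
      (b - u ∈ Ideal.span {algebraMap O ↥(locAlg R (centre h)) ϖ} ∨
        b - w ∈ Ideal.span {algebraMap O ↥(locAlg R (centre h)) ϖ}) ∧
      (b : F) ≠ 0 ∧ v.ord (b : F) = 1 ∧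
      ∀ v' : Place K F, CentredAt R (centre h) v' → v' ≠ v → v'.ord (b : F) = 0 := by
  haveI : IsNoetherianRing ↥(locAlg R (centre h)) := isNoetherianRing_locAlg R (centre h)
  have hϖm : ϖ ∈ maximalIdeal O := by
    rw [mem_maximalIdeal, mem_nonunits_iff]
    exact hirr.not_isUnit
  obtain ⟨b, hb, hbuw, ⟨y, hy, hyz⟩, h4⟩ := exists_locP_prime hirr
    (algebraMap_mem_maximalIdeal_locAlg h hϖm) hu hw hH huw hNS (evLocAlg h)
    (hreg_locAlg h g hg hgen)
  refine ⟨b, hbuw, locP_of_prime h hirr.ne_zero hfrac b hb ⟨y, ?_, ?_⟩ ?_⟩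
  · intro hy0
    exact hy ((RingHom.mem_ker).2 hy0)
  · intro z hz
    exact hyz z ((RingHom.mem_ker).2 hz)
  · intro q hq hbq hϖq z hz
    exact h4 q hq hbq hϖq ((RingHom.mem_ker).2 hz)

end Places


end Fermat.Agent.G.PointsLocP
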