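/-
P3-G, block (G-L)/(G-P) glue (helper9): **the concrete `LocalRoots.LocData` in the language of
places**, at a closed point `𝔫` of a chart `R ⊆ F` over a discrete valuation ring `O`.

`Pl := Place K F`, `ord := fun Q x => Q.ord x`, `σ := toRingAut g`, `τ := MulAction.toPerm g` for a
semilinear automorphism `g` of `F / K`.

* `ordMul_place`, `compat_place`, `hconst_place` : the global clauses `hord`, `hτ`, `hconst` of
  `LocalRoots.no_split_secondDiff`.
* `isSection_of_centredAt` : a rational place centred at a maximal ideal `𝔫 ⊇ 𝔪_O R` is a section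
  of `R` (with `centre = 𝔫`).
* `exists_locData` : `LocData` from (Loc-P) at the points of `D` centred at `𝔫`, the unit criterion
  and the stability of the set of places centred at `𝔫`.
* `locP_at_smooth`, `locP_at_crossing` : (Loc-P) at the two types of closed points, with the ideal
  `𝔫` (not `centre h`) in the statement.
-/
import Mathlib
import Fermat.Agent.G.PointsLocP
import Fermat.Agent.P3G.LocalRoots
import Fermat.Agent.P3G.LocPCrossing
import Fermat.Agent.P3G.Crossing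
import Fermat.Agent.P3G.UCrit

set_option autoImplicit false
set_option linter.unusedSectionVars false
set_option linter.style.haveILetI false

open AlgebraicCurve IsLocalRing

noncomputable section

namespace Fermat.Agent.G.LocDataPlace

open Fermat.Agent.N4F.E.EvalAt Fermat.Agent.N4F.E.PlaceValue Fermat.Agent.G.Points
  Fermat.Agent.G.PointsLoc Fermat.Agent.G.PointsLocP
  Fermat.Agent.P3G.SecondDiff Fermat.Agent.P3G.LocalRoots

/-! ### Global clauses -/

section Global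

variable {K F : Type*} [Field K] [Field F] [Algebra K F]

/-- The order functions of the places are multiplicative. -/
theorem ordMul_place : OrdMul (fun (Q : Place K F) (x : F) => Q.ord x) :=
  fun Q _ _ hf hg => Q.ord_mul hf hg

/-- The action of a semilinear automorphism on places is compatible with its action on
functions. -/
theorem compat_place (g : SemilinearAut K F) :
    Compat (fun (Q : Place K F) (x : F) => Q.ord x) (SemilinearAut.toRingAut g)
      (MulAction.toPerm g) := by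
  intro Q f
  exact SemilinearAut.ord_smul g Q f

theorem toPerm_symm_apply (g : SemilinearAut K F) (Q : Place K F) :
    (MulAction.toPerm g : Equiv.Perm (Place K F)).symm Q = g⁻¹ • Q := rfl

/-- Nonzero constants have order zero at every place. -/
theorem ord_algebraMap_eq_zero (Q : Place K F) {c : K} (hc : c ≠ 0) :
    Q.ord (algebraMap K F c) = 0 := by
  have hu : IsUnit (⟨algebraMap K F c, Q.algebraMap_mem' c⟩ : Q.toValuationSubring) := by
    refine isUnit_iff_exists_inv.mpr ⟨⟨algebraMap K F c⁻¹, Q.algebraMap_mem' c⁻¹⟩, ?_⟩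
    apply Subtype.ext
    show algebraMap K F c * algebraMap K F c⁻¹ = 1
    rw [← map_mul, mul_inv_cancel₀ hc, map_one]
  exact Q.ord_coe_unit hu.unit

end Global

variable {O K F : Type*} [CommRing O] [IsDomain O] [IsDiscreteValuationRing O]
  [Field K] [Algebra O K] [IsFractionRing O K]
  [Field F] [Algebra K F] [Algebra O F] [IsScalarTower O K F]

theorem hconst_place : ∀ a : O, a ≠ 0 → ∀ Q : Place K F, Q.ord (algebraMap O F a) = 0 := by
  intro a ha Q
  rw [IsScalarTower.algebraMap_apply O K F]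
  exact ord_algebraMap_eq_zero Q
    (fun h0 => ha (IsFractionRing.injective O K (by rw [h0, map_zero])))

/-! ### Rational places centred at a closed point are sections -/

section Centred

variable {R : Subalgebra O F} {𝔫 : Ideal ↥R}

/-- **A rational place centred at a maximal ideal containing `𝔪_O` is a section.** -/
theorem isSection_of_centredAt [h𝔫 : 𝔫.IsPrime]
    (hO : ∀ a : O, a ∈ maximalIdeal O → algebraMap O ↥R a ∈ 𝔫)
    {v : Place K F} (hv : Function.Bijective (algebraMap K v.ResidueField))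
    (hc : CentredAt R 𝔫 v) : IsSection R v hv := by
  intro r hr
  have hmem : r ∈ v.toValuationSubring := hc.mem ⟨r, hr⟩
  refine ⟨hmem, ?_⟩
  -- the value `c` of `r` at `v`
  set c : K := valueAt v hv r hmem with hcdef
  by_contra hnot
  rcases ValuationRing.isInteger_or_isInteger O c with ⟨a, ha⟩ | ⟨a, ha⟩
  · exact hnot ⟨a, ha⟩
  -- `c⁻¹ = a ∈ O`, and `a` is not a unit
  have hc0 : c ≠ 0 := by
    intro h0
    exact hnot ⟨0, by rw [map_zero, h0]⟩
  have hac : algebraMap O K a * c = 1 := by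
    rw [ha, inv_mul_cancel₀ hc0]
  have ham : a ∈ maximalIdeal O := by
    rw [mem_maximalIdeal, mem_nonunits_iff]
    rintro ⟨u, rfl⟩
    apply hnot
    refine ⟨((u⁻¹ : Oˣ) : O), ?_⟩
    have h1 : algebraMap O K ((u⁻¹ : Oˣ) : O) * algebraMap O K (u : O) = 1 := by
      rw [← map_mul, Units.inv_mul, map_one]
    have hu0 : algebraMap O K (u : O) ≠ 0 := by
      intro h0
      rw [h0, zero_mul] at hac
      exact zero_ne_one hac
    exact mul_right_cancel₀ hu0 (h1.trans hac.symm |>.trans (mul_comm _ _))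
  -- `y := a r - 1` vanishes at `v`
  have hsub := sub_valueAt_mem v hv r hmem
  have haF : algebraMap O F a ∈ v.toValuationSubring := by
    rw [IsScalarTower.algebraMap_apply O K F]
    exact v.algebraMap_mem' _
  have hy : algebraMap O F a * r - 1 ∈ v.toValuationSubring.nonunits := by
    have e : algebraMap O F a * r - 1 = algebraMap O F a * (r - algebraMap K F c) := by
      have h1 : algebraMap O F a * algebraMap K F c = 1 := by
        rw [IsScalarTower.algebraMap_apply O K F, ← map_mul, hac, map_one]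
      rw [mul_sub, h1]
    rw [e, ValuationSubring.mem_nonunits_iff, map_mul, mul_comm]
    rw [ValuationSubring.mem_nonunits_iff] at hsub
    exact mul_lt_one_of_lt_of_le hsub ((ValuationSubring.valuation_le_one_iff _ _).mpr haF)
  have hy𝔫 : algebraMap O ↥R a * (⟨r, hr⟩ : ↥R) - 1 ∈ 𝔫 := by
    refine (centredAt_iff.mp hc).2 (algebraMap O ↥R a * (⟨r, hr⟩ : ↥R) - 1) ?_
    have e : ((algebraMap O ↥R a * (⟨r, hr⟩ : ↥R) - 1 : ↥R) : F) = algebraMap O F a * r - 1 := by
      push_cast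
      rfl
    rw [e]
    exact hy
  have h1 : algebraMap O ↥R a * ⟨r, hr⟩ ∈ 𝔫 := 𝔫.mul_mem_right _ (hO a ham)
  have h2 : (1 : ↥R) ∈ 𝔫 := by
    have := 𝔫.sub_mem h1 hy𝔫
    rwa [sub_sub_cancel] at this
  exact h𝔫.ne_top ((Ideal.eq_top_iff_one _).mpr h2)

/-- The centre of the section attached to a rational place centred at a maximal ideal. -/
theorem centre_isSection_of_centredAt [h𝔫 : 𝔫.IsMaximal]
    (hO : ∀ a : O, a ∈ maximalIdeal O → algebraMap O ↥R a ∈ 𝔫)
    {v : Place K F} (hv : Function.Bijective (algebraMap K v.ResidueField))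
    (hc : CentredAt R 𝔫 v) :
    centre (isSection_of_centredAt (h𝔫 := h𝔫.isPrime) hO hv hc) = 𝔫 :=
  centre_eq_of_centredAt _ hc h𝔫

end Centred

/-! ### Stability of the set of places centred at `𝔫` -/

section Stable

variable {R : Subalgebra O F} {g : SemilinearAut K F}

theorem stableUnder_inv (hR : StableUnder g R) : StableUnder g⁻¹ R := by
  intro r
  constructor
  · intro hr
    exact hR.inv_smul_mem hr
  · intro hr
    have := hR.smul_mem hr
    rwa [smul_inv_smul] at this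

theorem trivialMod_inv (hR : StableUnder g R) {ϖ : O} (ht : TrivialMod g R ϖ) :
    TrivialMod g⁻¹ R ϖ := by
  intro r hr
  obtain ⟨s, hs, hrs⟩ := ht.inv hR r hr
  refine ⟨-s, R.neg_mem hs, ?_⟩
  rw [mul_neg, ← hrs]
  ring

/-- The set of places centred at a point of the special fibre is stable under `g⁻¹`, if `g` acts
trivially on `R / ϖ R`. -/
theorem centredAt_inv_smul (hR : StableUnder g R) {ϖ : O} (ht : TrivialMod g R ϖ)
    (𝔫 : Ideal ↥R) [𝔫.IsPrime] (hϖ𝔫 : algebraMap O ↥R ϖ ∈ 𝔫) {v' : Place K F}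
    (hc : CentredAt R 𝔫 v') : CentredAt R 𝔫 (g⁻¹ • v') :=
  centredAt_smul (stableUnder_inv hR) (trivialMod_inv hR ht) 𝔫 hϖ𝔫 hc

/-- The same under the weaker hypothesis that `g r - r ∈ 𝔫` for `r ∈ R` (triviality modulo the
point only). -/
theorem centredAt_smul_of_sub_mem (hR : StableUnder g R) (𝔫 : Ideal ↥R) [𝔫.IsPrime]
    (ht : ∀ r : R, ∃ s : R, s ∈ 𝔫 ∧ g • (r : F) - r = s) {v' : Place K F}
    (hc : CentredAt R 𝔫 v') : CentredAt R 𝔫 (g • v') := by
  rw [centredAt_iff] at hc ⊢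
  obtain ⟨h1, h2⟩ := hc
  constructor
  · intro r
    rw [Fermat.Agent.N4F.C.CoeffAut.mem_smul_place_iff]
    exact h1 ⟨g⁻¹ • (r : F), hR.inv_smul_mem r.2⟩
  · intro r hr
    rw [Fermat.Agent.N4F.C.CoeffAut.mem_nonunits_smul_place_iff] at hr
    have h3 := h2 ⟨g⁻¹ • (r : F), hR.inv_smul_mem r.2⟩ hr
    obtain ⟨s, hs, hrs⟩ := ht ⟨g⁻¹ • (r : F), hR.inv_smul_mem r.2⟩
    have e : r = (⟨g⁻¹ • (r : F), hR.inv_smul_mem r.2⟩ : R) + s := by
      apply Subtype.ext
      push_cast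
      rw [← hrs]
      show (r : F) = g⁻¹ • (r : F) + (g • (g⁻¹ • (r : F)) - g⁻¹ • (r : F))
      rw [smul_inv_smul]
      ring
    rw [e]
    exact Ideal.add_mem _ h3 hs

theorem centredAt_inv_smul_of_sub_mem (hR : StableUnder g R) (𝔫 : Ideal ↥R) [𝔫.IsPrime]
    (ht : ∀ r : R, ∃ s : R, s ∈ 𝔫 ∧ g • (r : F) - r = s) {v' : Place K F}
    (hc : CentredAt R 𝔫 v') : CentredAt R 𝔫 (g⁻¹ • v') := by
  refine centredAt_smul_of_sub_mem (stableUnder_inv hR) 𝔫 ?_ hc
  intro r
  obtain ⟨s, hs, hrs⟩ := ht ⟨g⁻¹ • (r : F), hR.inv_smul_mem r.2⟩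
  refine ⟨-s, 𝔫.neg_mem hs, ?_⟩
  push_cast
  rw [← hrs]
  show g⁻¹ • (r : F) - r = -(g • (g⁻¹ • (r : F)) - g⁻¹ • (r : F))
  rw [smul_inv_smul]
  ring

/-- Triviality modulo the point from ONE vertical component through the point: if `V ⊇ R` is a
valuation subring with `𝔪_V ∩ R ⊆ 𝔫` on whose residue field `g` acts trivially, then
`g r - r ∈ 𝔫` for `r ∈ R`. -/
theorem sub_mem_of_component (hR : StableUnder g R) (𝔫 : Ideal ↥R) (V : ValuationSubring F)
    (hV𝔫 : ∀ r : R, (r : F) ∈ V.nonunits → r ∈ 𝔫)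
    (htriv : ∀ x ∈ V, g • x - x ∈ V.nonunits) (hRV : ∀ r : R, (r : F) ∈ V) :
    ∀ r : R, ∃ s : R, s ∈ 𝔫 ∧ g • (r : F) - r = s := by
  intro r
  refine ⟨⟨g • (r : F) - r, R.sub_mem (hR.smul_mem r.2) r.2⟩, ?_, rfl⟩
  exact hV𝔫 _ (htriv _ (hRV r))

end Stable


/-! ### The builder -/

section Builder

variable {ι : Type*} (V : ι → ValuationSubring F) (g : SemilinearAut K F)
  (R : Subalgebra O F) (𝔫 : Ideal ↥R) [h𝔫 : 𝔫.IsPrime]

/-- The places (rational or not) centred at `𝔫`. -/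
def centredSet : Set (Place K F) := {Q | CentredAt R 𝔫 Q}

/-- The vertical components through `𝔫`. -/
def throughSet : Set ι := {i | ∀ r : R, algebraMap ↥R F r ∈ (V i).nonunits → r ∈ 𝔫}

theorem mem_centredSet_iff {Q : Place K F} : Q ∈ centredSet R 𝔫 ↔ CentredAt R 𝔫 Q := Iff.rfl

/-- `centredSet` in the form used by `P3G/UCrit.centredSet`. -/
theorem mem_centredSet_iff' {Q : Place K F} :
    Q ∈ centredSet R 𝔫 ↔ (∀ r : R, algebraMap ↥R F r ∈ Q.toValuationSubring) ∧
      ∀ r : R, algebraMap ↥R F r ∈ Q.toValuationSubring.nonunits → r ∈ 𝔫 :=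
  centredAt_iff

/-- **`LocalRoots.LocData` in the language of places.**  Inputs: the set of places centred at `𝔫`
is stable under `g⁻¹`; (Loc-P) at every point of the divisor `D` centred at `𝔫`; the unit
criterion. -/
theorem exists_locData (D : Divisor K F)
    (hstable : ∀ Q : Place K F, CentredAt R 𝔫 Q → CentredAt R 𝔫 (g⁻¹ • Q))
    (hLocP : ∀ P : Place K F, D P ≠ 0 → CentredAt R 𝔫 P →
      ∃ b : F, b ≠ 0 ∧ P.ord b = 1 ∧ ∀ Q : Place K F, CentredAt R 𝔫 Q → Q ≠ P → Q.ord b = 0)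
    (hcrit : ∀ x : F, x ≠ 0 → (∀ Q : Place K F, Q ∈ centredSet R 𝔫 → Q.ord x = 0) →
      (∀ i ∈ throughSet V R 𝔫, (V i).valuation x = 1) →
      ∃ a r : R, a ∉ 𝔫 ∧ r ∉ 𝔫 ∧ x * algebraMap ↥R F a = algebraMap ↥R F r) :
    ∃ (C : Set (Place K F)) (S : Finset (Place K F)) (b : Place K F → F) (I : Set ι),
      LocData (R := ↥R) V (fun (Q : Place K F) (x : F) => Q.ord x) (MulAction.toPerm g) (⇑D) 𝔫
        C S b I := by
  classical
  refine ⟨centredSet R 𝔫, D.support.filter (fun P => CentredAt R 𝔫 P),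
    fun P => if hP : D P ≠ 0 ∧ CentredAt R 𝔫 P then (hLocP P hP.1 hP.2).choose else 1,
    throughSet V R 𝔫, ?_⟩
  have hS : ∀ P, P ∈ D.support.filter (fun P => CentredAt R 𝔫 P) ↔
      D P ≠ 0 ∧ CentredAt R 𝔫 P := by
    intro P
    rw [Finset.mem_filter, Finsupp.mem_support_iff]
  refine
    { stable := fun Q hQ => hstable Q hQ
      supp := ?_
      b_ne := ?_
      b_one := ?_
      b_zero := ?_
      comp := fun i => Iff.rfl
      crit := hcrit }
  · intro P hPC hPS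
    by_contra hD
    exact hPS ((hS P).2 ⟨hD, hPC⟩)
  · intro P hP
    have hP' := (hS P).1 hP
    simp only [dif_pos hP']
    exact (hLocP P hP'.1 hP'.2).choose_spec.1
  · intro P hP
    have hP' := (hS P).1 hP
    simp only [dif_pos hP']
    exact (hLocP P hP'.1 hP'.2).choose_spec.2.1
  · intro P hP Q hQ hne
    have hP' := (hS P).1 hP
    simp only [dif_pos hP']
    exact (hLocP P hP'.1 hP'.2).choose_spec.2.2 Q hQ hne

end Builder


/-! ### (Loc-P) at the two types of closed points, with the ideal `𝔫` in the statement -/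

section PointTypes

open Fermat.Agent.P3G.NodeDeform Fermat.Agent.P3G.NodeLocP

variable {R : Subalgebra O F} {𝔫 : Ideal ↥R} [h𝔫 : 𝔫.IsMaximal]

/-- **(Loc-P) at a smooth point**: `𝔫 R_𝔫 = (z, ϖ)`. -/
theorem locP_at_smooth [IsNoetherianRing ↥R]
    (hO : ∀ a : O, a ∈ maximalIdeal O → algebraMap O ↥R a ∈ 𝔫)
    (hfrac : ∀ x : F, ∃ y z : R, z ≠ 0 ∧ x * (z : F) = (y : F))
    {ϖ : O} (hirr : Irreducible ϖ) {z : ↥(locAlg R 𝔫)}
    (hm : maximalIdeal ↥(locAlg R 𝔫) = Ideal.span {z, algebraMap O ↥(locAlg R 𝔫) ϖ})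
    {P : Place K F} (hP : Function.Bijective (algebraMap K P.ResidueField))
    (hc : CentredAt R 𝔫 P) :
    ∃ b : F, b ≠ 0 ∧ P.ord b = 1 ∧
      ∀ Q : Place K F, CentredAt R 𝔫 Q → Q ≠ P → Q.ord b = 0 := by
  have h : IsSection R P hP := isSection_of_centredAt (h𝔫 := h𝔫.isPrime) hO hP hc
  have hcen : centre h = 𝔫 := centre_eq_of_centredAt h hc h𝔫
  subst hcen
  obtain ⟨h1, h2⟩ := locP_smooth h hirr hm hfrac
  refine ⟨_, ?_, h1, h2⟩
  intro h0
  rw [h0, P.ord_zero] at h1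
  exact zero_ne_one h1

/-- **(Loc-P) at a crossing point**: `𝔫 R_𝔫 = (u, w, ϖ)` with residue field `O / ϖ` (`RatGen`),
`u w ∈ ϖ R_𝔫`, the node syzygy property, and (REG) at the sections through `𝔫`. -/
theorem locP_at_crossing [IsNoetherianRing ↥R]
    (hO : ∀ a : O, a ∈ maximalIdeal O → algebraMap O ↥R a ∈ 𝔫)
    (hfrac : ∀ x : F, ∃ y z : R, z ≠ 0 ∧ x * (z : F) = (y : F))
    {ϖ : O} (hirr : Irreducible ϖ) {u w : ↥(locAlg R 𝔫)}
    (hu : u ∈ maximalIdeal ↥(locAlg R 𝔫)) (hw : w ∈ maximalIdeal ↥(locAlg R 𝔫))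
    (hH : RatGen ϖ u w)
    (huw : u * w ∈ Ideal.span {algebraMap O ↥(locAlg R 𝔫) ϖ})
    (hNS : NodeSyz ϖ u w)
    {P : Place K F} (hP : Function.Bijective (algebraMap K P.ResidueField))
    (hreg : ∀ h : IsSection R P hP, ∃ g : R, ev h g = 0 ∧ Generates h g)
    (hc : CentredAt R 𝔫 P) :
    ∃ b : F, b ≠ 0 ∧ P.ord b = 1 ∧
      ∀ Q : Place K F, CentredAt R 𝔫 Q → Q ≠ P → Q.ord b = 0 := by
  have h : IsSection R P hP := isSection_of_centredAt (h𝔫 := h𝔫.isPrime) hO hP hc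
  have hcen : centre h = 𝔫 := centre_eq_of_centredAt h hc h𝔫
  subst hcen
  obtain ⟨g, hg, hgen⟩ := hreg h
  obtain ⟨b, -, hb0, hb1, hb2⟩ := exists_locP_place h hirr hfrac hu hw hH huw hNS g hg hgen
  exact ⟨(b : F), hb0, hb1, hb2⟩

end PointTypes


/-! ### Chart-level forms for `R = chartAlg O F {t}` -/

section Chart

open Fermat.Agent.N4.Chart Fermat.Agent.N4.IntClosure IntermediateField

variable [CharZero K] (t : F) (ht : Transcendental K t) [FiniteDimensional K⟮t⟯ F]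
  {𝔫 : Ideal ↥(chartAlg O F {t})} [h𝔫 : 𝔫.IsMaximal]

include ht in
/-- **(Loc-P) at a smooth point of a chart**, chart-level input: `z ∈ 𝔫` with
`∀ m ∈ 𝔫, ∃ s ∉ 𝔫, s m ∈ (z, ϖ)` (the smooth clause of `Crossing.exists_smooth_coordinate₁/₂`). -/
theorem locP_at_smooth_chart
    (hO : ∀ a : O, a ∈ maximalIdeal O → algebraMap O ↥(chartAlg O F {t}) a ∈ 𝔫)
    {ϖ : O} (hirr : Irreducible ϖ) {z : ↥(chartAlg O F {t})} (hz : z ∈ 𝔫)
    (hgen : ∀ m ∈ 𝔫, ∃ s : ↥(chartAlg O F {t}), s ∉ 𝔫 ∧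
      s * m ∈ Ideal.span {z, algebraMap O ↥(chartAlg O F {t}) ϖ})
    {P : Place K F} (hP : Function.Bijective (algebraMap K P.ResidueField))
    (hc : CentredAt (chartAlg O F {t}) 𝔫 P) :
    ∃ b : F, b ≠ 0 ∧ P.ord b = 1 ∧
      ∀ Q : Place K F, CentredAt (chartAlg O F {t}) 𝔫 Q → Q ≠ P → Q.ord b = 0 := by
  haveI : IsNoetherianRing (chartAlg O F {t}) := isNoetherianRing_chartAlg (O := O) (K := K) t ht
  have hϖm : ϖ ∈ maximalIdeal O := by
    rw [mem_maximalIdeal, mem_nonunits_iff]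
    exact hirr.not_isUnit
  have hT : ({z, algebraMap O ↥(chartAlg O F {t}) ϖ} : Set ↥(chartAlg O F {t})) ⊆ 𝔫 := by
    rintro x (rfl | rfl)
    · exact hz
    · exact hO ϖ hϖm
  have hm := Fermat.Agent.P3G.Crossing.maximalIdeal_eq_span_image 𝔫
    ↥(locAlg (chartAlg O F {t}) 𝔫) _ hT hgen
  rw [Set.image_pair] at hm
  exact locP_at_smooth hO (Fermat.Agent.P3G.LocPCrossing.hfrac_chart t ht) hirr hm hP hc

include ht in
/-- **(Loc-P) at a crossing point of a chart**, chart-level input (the clauses of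
`Crossing.exists_crossing_coordinates` / `LocPCrossing.locP_crossing`, with `𝔫` in place of the
centre of the section). -/
theorem locP_at_crossing_chart {Rb : Type*} [CommRing Rb] [IsDomain Rb]
    (hO : ∀ a : O, a ∈ maximalIdeal O → algebraMap O ↥(chartAlg O F {t}) a ∈ 𝔫)
    {ϖ : O} (hirr : Irreducible ϖ)
    (θ₁ θ₂ : ↥(chartAlg O F {t}) →+* Rb) {u w : ↥(chartAlg O F {t})}
    (hw : RingHom.ker θ₁ ⊓ RingHom.ker θ₂ =
      Ideal.span {algebraMap O ↥(chartAlg O F {t}) ϖ})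
    (hk1 : RingHom.ker θ₁ ≤ 𝔫) (hk2 : RingHom.ker θ₂ ≤ 𝔫)
    (hu2 : u ∈ RingHom.ker θ₂) (hw1 : w ∈ RingHom.ker θ₁)
    (hu1 : u ∉ RingHom.ker θ₁) (hw2 : w ∉ RingHom.ker θ₂)
    (hgen : ∀ m ∈ 𝔫, ∃ s : ↥(chartAlg O F {t}), s ∉ 𝔫 ∧
      s * m ∈ Ideal.span {u, w, algebraMap O ↥(chartAlg O F {t}) ϖ})
    {P : Place K F} (hP : Function.Bijective (algebraMap K P.ResidueField))
    (hc : CentredAt (chartAlg O F {t}) 𝔫 P) :
    ∃ b : F, b ≠ 0 ∧ P.ord b = 1 ∧
      ∀ Q : Place K F, CentredAt (chartAlg O F {t}) 𝔫 Q → Q ≠ P → Q.ord b = 0 := by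
  have h : IsSection (chartAlg O F {t}) P hP :=
    isSection_of_centredAt (h𝔫 := h𝔫.isPrime) hO hP hc
  have hcen : centre h = 𝔫 := centre_eq_of_centredAt h hc h𝔫
  subst hcen
  obtain ⟨b, -, -, hb1, hb2⟩ := Fermat.Agent.P3G.LocPCrossing.locP_crossing t ht h hirr θ₁ θ₂
    hw hk1 hk2 hu2 hw1 hu1 hw2 hgen
  refine ⟨(b : F), ?_, hb1, hb2⟩
  intro h0
  rw [h0, P.ord_zero] at hb1
  exact zero_ne_one hb1

end Chart


/-! ### The unit criterion in the shape of `exists_locData` -/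

section Crit

variable {ι : Type*} [Finite ι] (V : ι → ValuationSubring F)
  (R : Subalgebra O F) [IsNoetherianRing ↥R] [IsFractionRing ↥R F] [IsIntegrallyClosed ↥R]
  (hV : ∀ i (r : R), algebraMap ↥R F r ∈ V i) {ϖ : O} (hϖ : Irreducible ϖ)
  (hϖV : ∀ i, algebraMap ↥R F (algebraMap O ↥R ϖ) ∈ (V i).nonunits)
  (hsat : ∀ r : R, (∀ i, algebraMap ↥R F r ∈ (V i).nonunits) → algebraMap O ↥R ϖ ∣ r)
  (𝔫 : Ideal ↥R) [h𝔫 : 𝔫.IsPrime]

include hV hϖ hϖV hsat in
/-- `UCrit.hcrit_weak` with `C = centredSet R 𝔫` and `I = throughSet V R 𝔫`. -/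
theorem hcrit_place :
    ∀ x : F, x ≠ 0 → (∀ Q : Place K F, Q ∈ centredSet R 𝔫 → Q.ord x = 0) →
      (∀ i ∈ throughSet V R 𝔫, (V i).valuation x = 1) →
      ∃ a r : R, a ∉ 𝔫 ∧ r ∉ 𝔫 ∧ x * algebraMap ↥R F a = algebraMap ↥R F r := by
  intro x hx0 hC hI
  refine Fermat.Agent.P3G.UCrit.hcrit_weak (K := K) V hV hϖ hϖV hsat 𝔫 x hx0 ?_ ?_
  · intro Q hQ
    exact hC Q ((mem_centredSet_iff' R 𝔫).2 hQ)
  · intro i hi
    exact hI i ((Fermat.Agent.P3G.UCrit.mem_throughSet_iff V hV).1 hi)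

end Crit


end Fermat.Agent.G.LocDataPlace
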