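/-
P3-G glue (helper9): **(Loc-P) at EVERY closed point of a chart, from the abstract crossing data.**

`R = chartAlg O F {t}` a chart of a model over the discrete valuation ring `O`, with two residue
maps `θ₁ θ₂ : R → Rb` onto a Dedekind domain `Rb` (not a field) satisfying
`Crossing.CrossingData` and `ker θ₁ ⊓ ker θ₂ = (ϖ)` (reduced fibre with two components).  Then
every RATIONAL place `Q` centred at a closed point `𝔫 ∋ ϖ` has a local equation `b`:
`ord_Q b = 1` and `ord_{Q'} b = 0` at every other place `Q'` centred at `𝔫` — exactly the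
hypothesis `hLocP` of `LocalRootsSd.localRoots_sd` (given the rationality of the places in the
support of `div f`).
-/
import Mathlib
import Fermat.Agent.G.LocDataPlace

set_option autoImplicit false
set_option linter.unusedSectionVars false
set_option linter.style.haveILetI false

open AlgebraicCurve IsLocalRing

noncomputable section

namespace Fermat.Agent.G.LocPGlue

open Fermat.Agent.G.Points Fermat.Agent.G.PointsLoc Fermat.Agent.G.LocDataPlace
  Fermat.Agent.N4.Chart Fermat.Agent.P3G.Crossing IntermediateField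

variable {O K F : Type*} [CommRing O] [IsDomain O] [IsDiscreteValuationRing O]
  [Field K] [Algebra O K] [IsFractionRing O K]
  [Field F] [Algebra K F] [Algebra O F] [IsScalarTower O K F]

/-- The image of a maximal ideal containing the kernel of a surjection onto a domain which is not
a field is not zero. -/
theorem map_ne_bot_of_not_isField {R Rb : Type*} [CommRing R] [CommRing Rb] [IsDomain Rb]
    (hfield : ¬ IsField Rb) (θ₁ : R →+* Rb) (hs : Function.Surjective θ₁) (𝔫 : Ideal R)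
    [𝔫.IsMaximal] (hk : RingHom.ker θ₁ ≤ 𝔫) : 𝔫.map θ₁ ≠ ⊥ := by
  intro h
  have hmax := isMaximal_map θ₁ hs 𝔫 hk
  rw [h] at hmax
  exact hfield (Ring.isField_iff_maximal_bot.mpr hmax)

variable [CharZero K] (t : F) (ht : Transcendental K t) [FiniteDimensional K⟮t⟯ F]

include ht in
/-- **(Loc-P) at every closed point of a chart with a two-component reduced fibre.** -/
theorem locP_of_crossingData {RM Rb : Type*} [CommRing RM] [CommRing Rb] [IsDedekindDomain Rb]
    (hfield : ¬ IsField Rb) {ℓ : ℕ} {α β : RM → ↥(chartAlg O F {t})} {θ : RM →+* Rb}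
    {θ₁ θ₂ : ↥(chartAlg O F {t}) →+* Rb} {ψ : Rb ≃+* Rb}
    (D : CrossingData ℓ α β θ θ₁ θ₂ ψ) {ϖ : O} (hirr : Irreducible ϖ)
    (hw : RingHom.ker θ₁ ⊓ RingHom.ker θ₂ =
      Ideal.span {algebraMap O ↥(chartAlg O F {t}) ϖ})
    (𝔫 : Ideal ↥(chartAlg O F {t})) [h𝔫 : 𝔫.IsMaximal]
    (hϖ𝔫 : algebraMap O ↥(chartAlg O F {t}) ϖ ∈ 𝔫)
    {Q : Place K F} (hQ : Function.Bijective (algebraMap K Q.ResidueField))
    (hc : CentredAt (chartAlg O F {t}) 𝔫 Q) :
    ∃ b : F, b ≠ 0 ∧ Q.ord b = 1 ∧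
      ∀ Q' : Place K F, CentredAt (chartAlg O F {t}) 𝔫 Q' → Q' ≠ Q → Q'.ord b = 0 := by
  have hO : ∀ a : O, a ∈ maximalIdeal O → algebraMap O ↥(chartAlg O F {t}) a ∈ 𝔫 := by
    intro a ha
    rw [hirr.maximalIdeal_eq, Ideal.mem_span_singleton] at ha
    obtain ⟨c, rfl⟩ := ha
    rw [map_mul]
    exact 𝔫.mul_mem_right _ hϖ𝔫
  by_cases hk1 : RingHom.ker θ₁ ≤ 𝔫
  · by_cases hk2 : RingHom.ker θ₂ ≤ 𝔫
    · -- crossing point
      have hbot := map_ne_bot_of_not_isField hfield θ₁ D.surj₁ 𝔫 hk1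
      obtain ⟨z₁, -, z₂, -, z₁', -, z₂', -, u, v, -, -, -, -, hu2, hv1, hu1, hv2, -, -, -, hgen⟩ :=
        exists_crossing_coordinates D 𝔫 hk1 hk2 ⊤ (fun y => by
          obtain ⟨x, hx⟩ := D.surj y
          exact ⟨x, Subring.mem_top x, hx⟩) hbot hw.le
      exact locP_at_crossing_chart t ht hO hirr θ₁ θ₂ hw hk1 hk2 hu2 hv1 hu1 hv2 hgen hQ hc
    · -- smooth point on the first component
      have hbot := map_ne_bot_of_not_isField hfield θ₁ D.surj₁ 𝔫 hk1
      obtain ⟨z, hz, -, -, hgen⟩ := exists_smooth_coordinate₁ D 𝔫 hk1 hk2 hbot hw.le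
      exact locP_at_smooth_chart t ht hO hirr hz hgen hQ hc
  · -- smooth point on the second component
    have hk2 : RingHom.ker θ₂ ≤ 𝔫 := by
      rcases ker_le_or_of_mem (θ₁ := θ₁) (θ₂ := θ₂) 𝔫 hw hϖ𝔫 with h | h
      · exact absurd h hk1
      · exact h
    have hbot := map_ne_bot_of_not_isField hfield θ₂ D.surj₂ 𝔫 hk2
    obtain ⟨z, hz, -, -, hgen⟩ := exists_smooth_coordinate₂ D 𝔫 hk2 hk1 hbot hw.le
    exact locP_at_smooth_chart t ht hO hirr hz hgen hQ hc

end Fermat.Agent.G.LocPGlue
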