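/-
P3-G glue (helper9): **`Glue.LevelRoots.LocPRat` (helper18's input (I4)) from the chart-level
coordinates / from `Crossing.CrossingData`.**

* `locPRat_of_coordinates` : element-wise input = the outputs of
  `CrossingLaurent.exists_crossing_coordinates` / `exists_smooth_coordinate₁/₂`
  (`TwoComponents.exists_crossing_coordinates` …) at every closed point, `θ₁ θ₂` into ANY domain;
* `locPRat_of_crossingData` : from `Crossing.CrossingData` + `(V)` (`LocPGlue.locP_of_crossingData`).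
-/
import Mathlib
import Fermat.Agent.G.LocPGlue
import Fermat.Agent.P3G.Glue.LevelRoots

set_option autoImplicit false
set_option linter.unusedSectionVars false
set_option linter.style.haveILetI false

open AlgebraicCurve IsLocalRing

noncomputable section

namespace Fermat.Agent.G.LocPRatGlue

open Fermat.Agent.G.Points Fermat.Agent.G.PointsLoc Fermat.Agent.G.LocDataPlace
  Fermat.Agent.G.LocPGlue Fermat.Agent.N4.Chart Fermat.Agent.P3G.Crossing IntermediateField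
  Fermat.Agent.P3G.Glue.LevelRoots

universe u

variable {O K : Type*} [CommRing O] [IsDomain O] [IsDiscreteValuationRing O]
  [Field K] [Algebra O K] [IsFractionRing O K]
  {F : Type u} [Field F] [Algebra K F] [Algebra O F] [IsScalarTower O K F]

/-- `UCrit.centredSet` is `Points.CentredAt`. -/
theorem mem_ucrit_centredSet_iff (R : Subalgebra O F) (𝔫 : Ideal ↥R) [𝔫.IsPrime]
    {Q : Place K F} :
    Q ∈ Fermat.Agent.P3G.UCrit.centredSet K 𝔫 ↔ CentredAt R 𝔫 Q :=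
  (centredAt_iff (R := R) (𝔫 := 𝔫) (v := Q)).symm

variable [CharZero K] (t : F) (ht : Transcendental K t) [FiniteDimensional K⟮t⟯ F]

include ht in
/-- **`LocPRat` from chart-level coordinates**: `θ₁ θ₂ : R → Rb` (any domain) with
`ker θ₁ ⊓ ker θ₂ = (ϖ)`; at every closed point `𝔫 ∋ ϖ` on both components crossing coordinates
`u, w`; at every closed point on exactly one component a smooth coordinate `z`. -/
theorem locPRat_of_coordinates {Rb : Type*} [CommRing Rb] [IsDomain Rb]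
    (θ₁ θ₂ : ↥(chartAlg O F {t}) →+* Rb) {ϖ : O} (hirr : Irreducible ϖ)
    (hw : RingHom.ker θ₁ ⊓ RingHom.ker θ₂ =
      Ideal.span {algebraMap O ↥(chartAlg O F {t}) ϖ})
    (hcross : ∀ 𝔫 : Ideal ↥(chartAlg O F {t}), 𝔫.IsMaximal →
      RingHom.ker θ₁ ≤ 𝔫 → RingHom.ker θ₂ ≤ 𝔫 →
      ∃ u w : ↥(chartAlg O F {t}), u ∈ RingHom.ker θ₂ ∧ w ∈ RingHom.ker θ₁ ∧
        u ∉ RingHom.ker θ₁ ∧ w ∉ RingHom.ker θ₂ ∧
        ∀ m ∈ 𝔫, ∃ s : ↥(chartAlg O F {t}), s ∉ 𝔫 ∧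
          s * m ∈ Ideal.span {u, w, algebraMap O ↥(chartAlg O F {t}) ϖ})
    (hsm₁ : ∀ 𝔫 : Ideal ↥(chartAlg O F {t}), 𝔫.IsMaximal →
      RingHom.ker θ₁ ≤ 𝔫 → ¬ RingHom.ker θ₂ ≤ 𝔫 →
      ∃ z ∈ 𝔫, ∀ m ∈ 𝔫, ∃ s : ↥(chartAlg O F {t}), s ∉ 𝔫 ∧
          s * m ∈ Ideal.span {z, algebraMap O ↥(chartAlg O F {t}) ϖ})
    (hsm₂ : ∀ 𝔫 : Ideal ↥(chartAlg O F {t}), 𝔫.IsMaximal →
      RingHom.ker θ₂ ≤ 𝔫 → ¬ RingHom.ker θ₁ ≤ 𝔫 →
      ∃ z ∈ 𝔫, ∀ m ∈ 𝔫, ∃ s : ↥(chartAlg O F {t}), s ∉ 𝔫 ∧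
          s * m ∈ Ideal.span {z, algebraMap O ↥(chartAlg O F {t}) ϖ}) :
    LocPRat K ϖ t := by
  intro 𝔫 h𝔫 hϖ𝔫 Q hQ hbij
  haveI := h𝔫
  haveI := h𝔫.isPrime
  have hc : CentredAt (chartAlg O F {t}) 𝔫 Q := (mem_ucrit_centredSet_iff _ 𝔫).1 hQ
  have hO : ∀ a : O, a ∈ maximalIdeal O → algebraMap O ↥(chartAlg O F {t}) a ∈ 𝔫 := by
    intro a ha
    rw [hirr.maximalIdeal_eq, Ideal.mem_span_singleton] at ha
    obtain ⟨c, rfl⟩ := ha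
    rw [map_mul]
    exact 𝔫.mul_mem_right _ hϖ𝔫
  have key : ∃ b : F, b ≠ 0 ∧ Q.ord b = 1 ∧
      ∀ Q' : Place K F, CentredAt (chartAlg O F {t}) 𝔫 Q' → Q' ≠ Q → Q'.ord b = 0 := by
    by_cases hk1 : RingHom.ker θ₁ ≤ 𝔫
    · by_cases hk2 : RingHom.ker θ₂ ≤ 𝔫
      · obtain ⟨u, w, hu2, hw1, hu1, hw2, hgen⟩ := hcross 𝔫 h𝔫 hk1 hk2
        exact locP_at_crossing_chart t ht hO hirr θ₁ θ₂ hw hk1 hk2 hu2 hw1 hu1 hw2 hgen hbij hc
      · obtain ⟨z, hz, hgen⟩ := hsm₁ 𝔫 h𝔫 hk1 hk2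
        exact locP_at_smooth_chart t ht hO hirr hz hgen hbij hc
    · have hk2 : RingHom.ker θ₂ ≤ 𝔫 := by
        rcases ker_le_or_of_mem (θ₁ := θ₁) (θ₂ := θ₂) 𝔫 hw hϖ𝔫 with h | h
        · exact absurd h hk1
        · exact h
      obtain ⟨z, hz, hgen⟩ := hsm₂ 𝔫 h𝔫 hk2 hk1
      exact locP_at_smooth_chart t ht hO hirr hz hgen hbij hc
  obtain ⟨b, hb0, hb1, hb2⟩ := key
  exact ⟨b, hb0, hb1, fun Q' hQ' hne => hb2 Q' ((mem_ucrit_centredSet_iff _ 𝔫).1 hQ') hne⟩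

include ht in
/-- **`LocPRat` from `Crossing.CrossingData`** (+ `(V)`, `Rb` Dedekind, not a field). -/
theorem locPRat_of_crossingData {RM Rb : Type*} [CommRing RM] [CommRing Rb] [IsDedekindDomain Rb]
    (hfield : ¬ IsField Rb) {ℓ : ℕ} {α β : RM → ↥(chartAlg O F {t})} {θ : RM →+* Rb}
    {θ₁ θ₂ : ↥(chartAlg O F {t}) →+* Rb} {ψ : Rb ≃+* Rb}
    (D : CrossingData ℓ α β θ θ₁ θ₂ ψ) {ϖ : O} (hirr : Irreducible ϖ)
    (hw : RingHom.ker θ₁ ⊓ RingHom.ker θ₂ =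
      Ideal.span {algebraMap O ↥(chartAlg O F {t}) ϖ}) :
    LocPRat K ϖ t := by
  intro 𝔫 h𝔫 hϖ𝔫 Q hQ hbij
  haveI := h𝔫
  haveI := h𝔫.isPrime
  have hc : CentredAt (chartAlg O F {t}) 𝔫 Q := (mem_ucrit_centredSet_iff _ 𝔫).1 hQ
  obtain ⟨b, hb0, hb1, hb2⟩ := locP_of_crossingData t ht hfield D hirr hw 𝔫 hϖ𝔫 hbij hc
  exact ⟨b, hb0, hb1, fun Q' hQ' hne => hb2 Q' ((mem_ucrit_centredSet_iff _ 𝔫).1 hQ') hne⟩

end Fermat.Agent.G.LocPRatGlue
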