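/-
P3-G glue (helper9): **helper19's `LevelGeomOfPoints.LocPChart` from helper18's
`Glue.LevelRoots.LocPRat` + the vertical data `VertLevel`.**

* `trivialMod_of_twoVal` : `g R = R`, `g` trivial on the residue fields of `V₁ V₂`, `W = V₁ ∩ V₂`
  semilocal Gauss for `(R, ϖ)`  ⇒  `g r - r ∈ ϖ R` (`PointsLoc.TrivialMod`);
* `ucrit_centredSet_inv_smul` : hence the set of places centred at a closed point of the special
  fibre is `g⁻¹`-stable (first clause of `LocPChart`);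
* `locPChart_of_locPRat` : `LocPChart A K hKs N σ ϖ s` for `σ` in the decomposition group and a
  `σ_K`-fixed coordinate `s` (`s = jF`, `s = jF⁻¹`).
-/
import Mathlib
import Fermat.Agent.G.LocPRat
import Fermat.Agent.P3G.Assembly.LevelGeomOfPoints
import Fermat.Agent.P3G.Glue.LevelDict

set_option autoImplicit false
set_option linter.unusedSectionVars false
set_option linter.style.haveILetI false

open AlgebraicCurve IsLocalRing ModularCurve

noncomputable section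

namespace Fermat.Agent.G.LocPChartGlue

open Fermat.Agent.G.Points Fermat.Agent.G.PointsLoc Fermat.Agent.G.LocDataPlace
  Fermat.Agent.G.LocPRatGlue Fermat.Agent.N4.Chart
  Fermat.Agent.P3G.Glue.LevelRoots Fermat.Agent.P3G.Cover.Lift Fermat.Agent.P3G.Assembly.PowCover

universe u

section Generic

variable {O K : Type*} [CommRing O] [IsDomain O] [IsDiscreteValuationRing O]
  [Field K] [Algebra O K] [IsFractionRing O K]
  {F : Type u} [Field F] [Algebra K F] [Algebra O F] [IsScalarTower O K F]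

/-- `g` acts trivially on `R / ϖ R`. -/
theorem trivialMod_of_twoVal (R : Subalgebra O F) {ϖ : O} {W : Subring F}
    {V₁ V₂ : ValuationSubring F} (hT : TwoVal ϖ W V₁ V₂)
    (hWs : IsSemiGaussRing W (algebraMap O ↥R ϖ)) (g : SemilinearAut K F)
    (hR : StableUnder g R)
    (htriv₁ : ∀ x ∈ V₁, g • x - x ∈ V₁.nonunits)
    (htriv₂ : ∀ x ∈ V₂, g • x - x ∈ V₂.nonunits) : TrivialMod g R ϖ := by
  intro r hr
  have hrW : r ∈ W := hWs.le ⟨r, hr⟩
  have hx : g • r - r ∈ R := R.sub_mem (hR.smul_mem hr) hr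
  obtain ⟨w, hw, hxw⟩ := hT.exists_eq_mul (htriv₁ r (hT.mem₁ hrW)) (htriv₂ r (hT.mem₂ hrW))
  obtain ⟨s, hs⟩ := hWs.sat ⟨g • r - r, hx⟩ ⟨w, hw, hxw⟩
  refine ⟨(s : F), s.2, ?_⟩
  have := congrArg (fun y : ↥R => (y : F)) hs
  simpa using this

/-- The places centred at a closed point of the special fibre are stable under `g⁻¹`. -/
theorem ucrit_centredSet_inv_smul (R : Subalgebra O F) {ϖ : O} {W : Subring F}
    {V₁ V₂ : ValuationSubring F} (hT : TwoVal ϖ W V₁ V₂)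
    (hWs : IsSemiGaussRing W (algebraMap O ↥R ϖ)) (g : SemilinearAut K F)
    (hR : StableUnder g R)
    (htriv₁ : ∀ x ∈ V₁, g • x - x ∈ V₁.nonunits)
    (htriv₂ : ∀ x ∈ V₂, g • x - x ∈ V₂.nonunits)
    (𝔫 : Ideal ↥R) [𝔫.IsPrime] (hϖ𝔫 : algebraMap O ↥R ϖ ∈ 𝔫) :
    ∀ Q : Place K F, Q ∈ Fermat.Agent.P3G.UCrit.centredSet K 𝔫 →
      g⁻¹ • Q ∈ Fermat.Agent.P3G.UCrit.centredSet K 𝔫 := by
  intro Q hQ
  rw [mem_ucrit_centredSet_iff] at hQ ⊢
  exact centredAt_inv_smul hR (trivialMod_of_twoVal R hT hWs g hR htriv₁ htriv₂) 𝔫 hϖ𝔫 hQ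

end Generic

section Level

open Fermat.Agent.N4.Setting Fermat.Agent.N4.BigDVR Fermat.Agent.P3G.GammaAut
  Fermat.Agent.P3G.Assembly.LevelGeomOfPoints Fermat.Agent.N4F.C.Levels
open Fermat.Agent.S24.PlaceDeriv (ResidueTrivial)

local notation "Qbar" => AlgebraicClosure ℚ
local notation "Γ" => (AlgebraicClosure ℚ ≃ₐ[ℚ] AlgebraicClosure ℚ)

variable (A : ValuationSubring Qbar) (K : IntermediateField ℚ Qbar)
  (hKs : ∀ (τ : Γ) (x : Qbar), x ∈ K → τ x ∈ K) (N : ℕ) [NeZero N] {σ : Γ}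

/-- **`LocPChart` from `LocPRat` and the vertical data.** -/
theorem locPChart_of_locPRat [IsDiscreteValuationRing ↥(baseRing A K)]
    [IsFractionRing ↥(baseRing A K) (Lvl K)]
    (hσ : σ ∈ A.decompositionSubgroup ℚ)
    {ϖ : ↥(baseRing A K)} {W : Subring (FF (Lvl K) N)}
    {V₁ V₂ : ValuationSubring (FF (Lvl K) N)}
    (hT : TwoVal ϖ W V₁ V₂)
    (htriv₁ : ∀ x ∈ V₁, levelFF K hKs N σ • x - x ∈ V₁.nonunits)
    (htriv₂ : ∀ x ∈ V₂, levelFF K hKs N σ • x - x ∈ V₂.nonunits)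
    (s : FF (Lvl K) N) (hs : levelFF K hKs N σ • s = s)
    (hWs : IsSemiGaussRing W
      (algebraMap ↥(baseRing A K) (chartAlg ↥(baseRing A K) (FF (Lvl K) N) {s}) ϖ))
    (hLocP : LocPRat (Lvl K) ϖ s) : LocPChart A K hKs N σ ϖ s := by
  intro 𝔫 h𝔫 hϖ𝔫
  haveI := h𝔫.isPrime
  have hR : StableUnder (levelFF K hKs N σ) (chartAlg ↥(baseRing A K) (FF (Lvl K) N) {s}) := by
    intro r
    exact (levelFF_smul_mem_chartAlg_iff K hKs N hσ (fun u hu => by
      rw [Set.mem_singleton_iff] at hu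
      rw [hu, hs])).symm
  refine ⟨ucrit_centredSet_inv_smul _ hT hWs _ hR htriv₁ htriv₂ 𝔫 hϖ𝔫, ?_⟩
  intro P hP hrat
  exact hLocP 𝔫 h𝔫 hϖ𝔫 P hP (Fermat.Agent.P3G.Glue.LevelDict.bijective_of_residueTrivial hrat)

/-- The same with the vertical data bundled in `VertLevel`, finite chart. -/
theorem locPChart_fin [IsDiscreteValuationRing ↥(baseRing A K)]
    [IsFractionRing ↥(baseRing A K) (Lvl K)]
    (hσ : σ ∈ A.decompositionSubgroup ℚ)
    {ϖ : ↥(baseRing A K)} {W : Subring (FF (Lvl K) N)}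
    {V₁ V₂ : ValuationSubring (FF (Lvl K) N)}
    (hV : VertLevel A K hKs N σ ϖ W V₁ V₂)
    (hLocP : LocPRat (Lvl K) ϖ (jF (Lvl K) N)) :
    LocPChart A K hKs N σ ϖ (jF (Lvl K) N) :=
  locPChart_of_locPRat A K hKs N hσ hV.twoVal hV.triv₁ hV.triv₂ _
    (levelFF_smul_jF K hKs N σ) hV.semiP hLocP

/-- The same with the vertical data bundled in `VertLevel`, chart at infinity. -/
theorem locPChart_inf [IsDiscreteValuationRing ↥(baseRing A K)]
    [IsFractionRing ↥(baseRing A K) (Lvl K)]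
    (hσ : σ ∈ A.decompositionSubgroup ℚ)
    {ϖ : ↥(baseRing A K)} {W : Subring (FF (Lvl K) N)}
    {V₁ V₂ : ValuationSubring (FF (Lvl K) N)}
    (hV : VertLevel A K hKs N σ ϖ W V₁ V₂)
    (hLocP : LocPRat (Lvl K) ϖ (jF (Lvl K) N)⁻¹) :
    LocPChart A K hKs N σ ϖ (jF (Lvl K) N)⁻¹ :=
  locPChart_of_locPRat A K hKs N hσ hV.twoVal hV.triv₁ hV.triv₂ _
    (levelFF_smul_jF_inv K hKs N σ) hV.semiM hLocP

end Level

end Fermat.Agent.G.LocPChartGlue
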